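import Fermat.Agent.BakerExplicit.PowerRatio
import Mathlib.Analysis.SpecialFunctions.Log.PosLog
import Mathlib.RingTheory.Ideal.Norm.AbsNorm

/-!
# An elementary lower bound for the height of a quotient

For integers `a`, `b` the height of `a / b`, times the degree, is
`∑ σ, log (max ‖σ a‖ ‖σ b‖) - log N (a, b)`. Unless `a / b` is a root of unity it is at least
`log 2 / 2 ^ (3 d)` in degree at most `d`: either `b` does not divide `a`, and it is at least
`log 2`, or the powers of the integer `a / b` would be too many bounded integers.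
-/

set_option autoImplicit false
set_option linter.unusedSectionVars false

noncomputable section

namespace FA.Postnikova

open Finset NumberField Module Real

variable {K : Type*} [Field K] [NumberField K]

/-- The degree times the logarithmic height of `a / b`. -/
def pairLogSize (a b : 𝓞 K) : ℝ :=
  ∑ σ : K →+* ℂ, log (max ‖σ (a : K)‖ ‖σ (b : K)‖) - log (Ideal.absNorm (Ideal.span {a, b}))

theorem norm_emb_pos (σ : K →+* ℂ) {z : 𝓞 K} (hz : z ≠ 0) : 0 < ‖σ (z : K)‖ :=
  norm_pos_iff.2 ((map_ne_zero σ).2 (RingOfIntegers.coe_ne_zero_iff.2 hz))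

theorem absNorm_span_pos {z : 𝓞 K} (hz : z ≠ 0) : 0 < Ideal.absNorm (Ideal.span {z}) :=
  Nat.pos_of_ne_zero fun h => hz (Ideal.span_singleton_eq_bot.1 (Ideal.absNorm_eq_zero_iff.1 h))

theorem sum_log_norm {z : 𝓞 K} (hz : z ≠ 0) :
    ∑ σ : K →+* ℂ, log ‖σ (z : K)‖ = log (Ideal.absNorm (Ideal.span {z})) := by
  rw [← log_prod fun σ _ => (norm_emb_pos σ hz).ne',
    BakerExplicit.EffectiveThue.prod_norm_eq (M := Algebra.norm ℤ z) (Algebra.coe_norm_int z).symm,
    Ideal.absNorm_span_singleton, Nat.cast_natAbs, Int.cast_abs]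

theorem log_two_le_sum_posLog {d : ℕ} (hd : finrank ℚ K ≤ d) {z : 𝓞 K} (hz0 : z ≠ 0)
    (hz : ∀ i : ℕ, 0 < i → z ^ i ≠ 1) :
    log 2 / 2 ^ (3 * d) ≤ ∑ σ : K →+* ℂ, posLog ‖σ (z : K)‖ := by
  classical
  by_contra hlt
  push Not at hlt
  rw [lt_div_iff₀ (by positivity)] at hlt
  set M := 2 ^ (3 * d) with hM
  have hsmall : ∀ j ≤ M, ∀ σ : K →+* ℂ, ‖σ ((z ^ j : 𝓞 K) : K)‖ ≤ (2 : ℝ) ^ 1 := by
    intro j hj σ
    have hpos := norm_emb_pos σ (pow_ne_zero j hz0)
    rw [← log_le_log_iff hpos (by norm_num), pow_one]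
    simp only [map_pow, norm_pow, log_pow]
    refine le_trans ?_ hlt.le
    calc (j : ℝ) * log ‖σ (z : K)‖ ≤ (j : ℝ) * posLog ‖σ (z : K)‖ :=
          mul_le_mul_of_nonneg_left (le_max_right _ _) (Nat.cast_nonneg _)
      _ ≤ (2 : ℝ) ^ (3 * d) * posLog ‖σ (z : K)‖ :=
          mul_le_mul_of_nonneg_right (by exact_mod_cast hj) posLog_nonneg
      _ ≤ _ := by
          rw [mul_comm]
          exact mul_le_mul_of_nonneg_right
            (single_le_sum (f := fun τ : K →+* ℂ => posLog ‖τ (z : K)‖) (fun _ _ => posLog_nonneg)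
              (mem_univ σ)) (by positivity)
  have hinj : Set.InjOn (fun j => z ^ j) (range (M + 1) : Finset ℕ) := by
    intro i _ j _ hij
    simp only at hij
    by_contra hne
    rcases lt_or_gt_of_ne hne with hlt | hlt
    · exact hz (j - i) (by omega) (mul_left_cancel₀ (pow_ne_zero i hz0)
        (by rw [← pow_add, Nat.add_sub_cancel' hlt.le, mul_one, hij]))
    · exact hz (i - j) (by omega) (mul_left_cancel₀ (pow_ne_zero j hz0)
        (by rw [← pow_add, Nat.add_sub_cancel' hlt.le, mul_one, hij]))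
  have h := BakerExplicit.PowerRatio.card_le hd (T := 1) (s := (range (M + 1)).image (z ^ ·))
    fun w hw => by
      obtain ⟨j, hj, rfl⟩ := mem_image.1 hw
      exact hsmall j (Nat.lt_succ_iff.1 (mem_range.1 hj))
  rw [card_image_of_injOn hinj, card_range, hM] at h
  norm_num at h

/-- **The height is bounded below.** -/
theorem pairLogSize_ge {d : ℕ} (hd : finrank ℚ K ≤ d) {a b : 𝓞 K} (ha : a ≠ 0) (hb : b ≠ 0)
    (hab : ∀ i : ℕ, 0 < i → ((a : K) / (b : K)) ^ i ≠ 1) :
    log 2 / 2 ^ (3 * d) ≤ pairLogSize a b := by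
  have hsum : log (Ideal.absNorm (Ideal.span {b})) ≤
      ∑ σ : K →+* ℂ, log (max ‖σ (a : K)‖ ‖σ (b : K)‖) :=
    (sum_log_norm hb).symm.trans_le
      (sum_le_sum fun σ _ => log_le_log (norm_emb_pos σ hb) (le_max_right _ _))
  have hle : Ideal.span {b} ≤ Ideal.span {a, b} :=
    Ideal.span_mono (Set.subset_insert _ _)
  rcases hle.eq_or_lt with he | hlt
  · obtain ⟨z, rfl⟩ := Ideal.mem_span_singleton.1
      (he.symm ▸ Ideal.subset_span (Set.mem_insert a {b}) : a ∈ Ideal.span {b})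
    have hbK : (b : K) ≠ 0 := RingOfIntegers.coe_ne_zero_iff.2 hb
    have hzi : ∀ i : ℕ, 0 < i → z ^ i ≠ 1 := fun i hi h => hab i hi (by
      rw [show ((b * z : 𝓞 K) : K) = (b : K) * (z : K) from map_mul _ _ _,
        mul_div_cancel_left₀ _ hbK,
        show (z : K) ^ i = ((z ^ i : 𝓞 K) : K) from (map_pow _ _ _).symm,
        h]
      exact map_one _)
    have hterm : ∀ σ : K →+* ℂ, log (max ‖σ ((b * z : 𝓞 K) : K)‖ ‖σ (b : K)‖) =
        log ‖σ (b : K)‖ + posLog ‖σ (z : K)‖ := fun σ => by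
      rw [posLog_eq_log_max_one (norm_nonneg _),
        ← log_mul (norm_emb_pos σ hb).ne' (lt_max_of_lt_left one_pos).ne',
        mul_max_of_nonneg _ _ (norm_nonneg _), mul_one, max_comm]
      simp [map_mul]
    rw [pairLogSize, sum_congr rfl fun σ _ => hterm σ, sum_add_distrib, sum_log_norm hb, ← he,
      add_sub_cancel_left]
    exact log_two_le_sum_posLog hd (right_ne_zero_of_mul ha) hzi
  · obtain ⟨J, hJ⟩ := Ideal.dvd_iff_le.2 hlt.le
    have hJ1 : J ≠ ⊤ := by
      rintro rfl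
      exact hlt.ne (hJ.trans (Ideal.mul_top _))
    have hJ0 : Ideal.absNorm J ≠ 0 := fun h0 => (absNorm_span_pos hb).ne' (by
      rw [hJ, map_mul, h0, mul_zero])
    have hg0 : Ideal.absNorm (Ideal.span {a, b}) ≠ 0 := fun h0 => (absNorm_span_pos hb).ne' (by
      rw [hJ, map_mul, h0, zero_mul])
    have h2 : 2 * Ideal.absNorm (Ideal.span {a, b}) ≤ Ideal.absNorm (Ideal.span {b}) := by
      rw [hJ, map_mul, mul_comm]
      exact Nat.mul_le_mul_left _ (Nat.succ_le_iff.2
        ((Nat.one_le_iff_ne_zero.2 hJ0).lt_of_ne fun h => hJ1 (Ideal.absNorm_eq_one_iff.1 h.symm)))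
    have h3 : log 2 + log (Ideal.absNorm (Ideal.span {a, b})) ≤
        log (Ideal.absNorm (Ideal.span {b})) := by
      rw [← log_mul two_ne_zero (Nat.cast_ne_zero.2 hg0)]
      exact log_le_log (by positivity) (by exact_mod_cast h2)
    have h4 : log 2 / 2 ^ (3 * d) ≤ log 2 :=
      div_le_self (log_nonneg one_le_two) (one_le_pow₀ one_le_two)
    rw [pairLogSize]
    linarith

end FA.Postnikova

end
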