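import Fermat.Agent.Postnikova.Arith
import Fermat.Agent.Postnikova.Height
import Fermat.Agent.Root.SummaryThueEffective
import Mathlib.RingTheory.Polynomial.Cyclotomic.Basic
import Mathlib.Analysis.SpecialFunctions.Complex.LogBounds

/-!
# The archimedean sizes of homogeneous cyclotomic values

If `|σ a| ≤ |σ b|` and `a / b` is no root of unity, the theorem of Baker for the logarithms of
`σ a / σ b` and of `-1` bounds `|(σ a / σ b) ^ j - 1|` from below by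
`2 ^ -(distExponent d h m)` for `2 j ≤ 2 ^ m`. By Möbius inversion the homogeneous cyclotomic
value has the size `max (|σ a|, |σ b|) ^ φ(n)` up to a factor `2 ^ (2 ^ ω(n) · distExponent d h m)`.
-/

set_option autoImplicit false
set_option linter.unusedSectionVars false

noncomputable section

namespace FA.Postnikova

open Finset NumberField Module Real

section dist

variable {K : Type*} [Field K] [NumberField K]

theorem house_norm_bound {d h : ℕ} (hd : finrank ℚ K ≤ d) {b : 𝓞 K}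
    (hbh : ∀ σ : K →+* ℂ, ‖σ (b : K)‖ ≤ (2 : ℝ) ^ h) :
    (Ideal.absNorm (Ideal.span {b}) : ℝ) ≤ (2 : ℝ) ^ (d * h) := by
  rw [Ideal.absNorm_span_singleton, Nat.cast_natAbs, Int.cast_abs,
    ← BakerExplicit.EffectiveThue.prod_norm_eq (Algebra.coe_norm_int b).symm]
  calc ∏ σ : K →+* ℂ, ‖σ (b : K)‖ ≤ ∏ _σ : K →+* ℂ, (2 : ℝ) ^ h :=
        prod_le_prod (fun σ _ => norm_nonneg _) fun σ _ => hbh σ
    _ = (2 : ℝ) ^ (h * finrank ℚ K) := by rw [prod_const, card_univ, Embeddings.card, pow_mul]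
    _ ≤ _ := pow_le_pow_right₀ one_le_two
        (by rw [mul_comm d]; exact Nat.mul_le_mul_left _ hd)

theorem inv_norm_emb_le {d h : ℕ} (hd : finrank ℚ K ≤ d) {b : 𝓞 K} (hb : b ≠ 0)
    (hbh : ∀ σ : K →+* ℂ, ‖σ (b : K)‖ ≤ (2 : ℝ) ^ h) (σ : K →+* ℂ) :
    ‖σ (b : K)‖⁻¹ ≤ (2 : ℝ) ^ ((d - 1) * h) := by
  classical
  have h1 : (1 : ℝ) ≤ ∏ τ : K →+* ℂ, ‖τ (b : K)‖ := by
    rw [BakerExplicit.EffectiveThue.prod_norm_eq (Algebra.coe_norm_int b).symm, ← Int.cast_abs]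
    exact_mod_cast Int.one_le_abs (Algebra.norm_ne_zero_iff.2 hb)
  rw [← mul_prod_erase _ _ (mem_univ σ)] at h1
  have h2 : ∏ τ ∈ univ.erase σ, ‖τ (b : K)‖ ≤ (2 : ℝ) ^ ((d - 1) * h) := by
    refine (prod_le_prod (g := fun _ => (2 : ℝ) ^ h) (fun τ _ => norm_nonneg _)
      fun τ _ => hbh τ).trans ?_
    rw [prod_const, card_erase_of_mem (mem_univ σ), card_univ, Embeddings.card, ← pow_mul,
      mul_comm h]
    exact pow_le_pow_right₀ one_le_two (Nat.mul_le_mul_right _ (Nat.sub_le_sub_right hd 1))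
  rw [inv_le_iff_one_le_mul₀ (norm_emb_pos σ hb), mul_comm]
  exact h1.trans (mul_le_mul_of_nonneg_left h2 (norm_nonneg _))

/-- The logarithm of a power close to `1` is a linear form in two logarithms. -/
theorem exists_winding {w : ℂ} (hw0 : w ≠ 0) {j : ℕ} (hj : 0 < j)
    (hsmall : ‖w ^ j - 1‖ ≤ 1 / 2) :
    ∃ k : ℤ, k.natAbs ≤ j ∧
      ‖(j : ℂ) * Complex.log w + (k : ℂ) * (2 * π * Complex.I)‖ ≤ 3 / 2 * ‖w ^ j - 1‖ ∧
      Complex.exp ((j : ℂ) * Complex.log w + (k : ℂ) * (2 * π * Complex.I)) = w ^ j := by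
  set Λ := Complex.log (1 + (w ^ j - 1)) with hΛ
  have hΛle : ‖Λ‖ ≤ 3 / 2 * ‖w ^ j - 1‖ := Complex.norm_log_one_add_half_le_self hsmall
  have hexpΛ : Complex.exp Λ = w ^ j := by
    rw [hΛ, add_sub_cancel, Complex.exp_log (pow_ne_zero j hw0)]
  obtain ⟨k, hk⟩ : ∃ k : ℤ, Λ = (j : ℂ) * Complex.log w + (k : ℂ) * (2 * π * Complex.I) := by
    refine Complex.exp_eq_exp_iff_exists_int.1 ?_
    rw [hexpΛ, Complex.exp_nat_mul, Complex.exp_log hw0]
  refine ⟨k, ?_, hk ▸ hΛle, hk ▸ hexpΛ⟩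
  have him : Λ.im = (j : ℝ) * (Complex.log w).im + (k : ℝ) * (2 * π) := by
    rw [hk]
    simp
  have h1 := Complex.abs_im_le_norm Λ
  have h2 : |(Complex.log w).im| ≤ π := by
    rw [Complex.log_im]
    exact Complex.abs_arg_le_pi w
  have h3 : |(k : ℝ)| * (2 * π) ≤ ‖Λ‖ + (j : ℝ) * π := by
    rw [← abs_of_pos (by positivity : (0 : ℝ) < 2 * π), ← abs_mul,
      eq_sub_of_add_eq' him.symm]
    refine (abs_sub _ _).trans (add_le_add h1 ?_)
    rw [abs_mul, Nat.abs_cast]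
    exact mul_le_mul_of_nonneg_left h2 (Nat.cast_nonneg _)
  have h4 : |(k : ℝ)| < (j : ℝ) + 1 := by
    nlinarith [pi_gt_three, abs_nonneg (k : ℝ), Nat.one_le_cast (α := ℝ).2 hj]
  rw [← Int.cast_abs, Int.abs_eq_natAbs] at h4
  have h5 : k.natAbs < j + 1 := by exact_mod_cast h4
  omega

theorem norm_div_le {d h : ℕ} (hd : finrank ℚ K ≤ d) {a b : 𝓞 K} (hb : b ≠ 0)
    (hah : ∀ σ : K →+* ℂ, ‖σ (a : K)‖ ≤ (2 : ℝ) ^ h)
    (hbh : ∀ σ : K →+* ℂ, ‖σ (b : K)‖ ≤ (2 : ℝ) ^ h) (τ : K →+* ℂ) :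
    ‖τ (a : K) / τ (b : K)‖ ≤ (2 : ℝ) ^ (d * h) := by
  have hd1 : 1 ≤ d := le_trans finrank_pos hd
  rw [norm_div, div_eq_mul_inv]
  refine (mul_le_mul (hah τ) (inv_norm_emb_le hd hb hbh τ) (by positivity)
    (by positivity)).trans (le_of_eq ?_)
  rw [← pow_add]
  congr 1
  obtain ⟨e, rfl⟩ : ∃ e, d = e + 1 := ⟨d - 1, by omega⟩
  rw [Nat.add_sub_cancel]
  ring

theorem norm_log_le {d h : ℕ} (hd : finrank ℚ K ≤ d) {a b : 𝓞 K} (ha : a ≠ 0) (hb : b ≠ 0)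
    (hah : ∀ σ : K →+* ℂ, ‖σ (a : K)‖ ≤ (2 : ℝ) ^ h)
    (hbh : ∀ σ : K →+* ℂ, ‖σ (b : K)‖ ≤ (2 : ℝ) ^ h) (σ : K →+* ℂ)
    (hle : ‖σ (a : K)‖ ≤ ‖σ (b : K)‖) :
    ‖Complex.log (σ (a : K) / σ (b : K))‖ ≤ ((d * h + 4 : ℕ) : ℝ) := by
  set w : ℂ := σ (a : K) / σ (b : K) with hw
  have hw0 : 0 < ‖w‖ := by
    rw [hw, norm_div]
    exact div_pos (norm_emb_pos σ ha) (norm_emb_pos σ hb)
  refine (Complex.norm_le_abs_re_add_abs_im _).trans ?_
  rw [Complex.log_re, Complex.log_im]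
  have h1 : -log ‖w‖ ≤ (d * h : ℕ) * log 2 := by
    rw [← log_inv, ← log_pow]
    refine log_le_log (inv_pos.2 hw0) ?_
    rw [← norm_inv, hw, inv_div]
    exact norm_div_le hd ha hbh hah σ
  have h2 : log ‖w‖ ≤ 0 := log_nonpos hw0.le
    (by rw [hw, norm_div]; exact div_le_one_of_le₀ hle (norm_nonneg _))
  have h3 := Complex.abs_arg_le_pi w
  have h4 : ((d * h : ℕ) : ℝ) * log 2 ≤ ((d * h : ℕ) : ℝ) :=
    mul_le_of_le_one_right (Nat.cast_nonneg _) (log_two_lt_d9.le.trans (by norm_num))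
  rw [abs_of_nonpos h2]
  push_cast at h1 h4 ⊢
  linarith [pi_lt_four]

/-- The instance of the theorem of Baker. -/
theorem baker_two {d h m : ℕ} (hd : finrank ℚ K ≤ d) {a b : 𝓞 K} (ha : a ≠ 0) (hb : b ≠ 0)
    (hah : ∀ σ : K →+* ℂ, ‖σ (a : K)‖ ≤ (2 : ℝ) ^ h)
    (hbh : ∀ σ : K →+* ℂ, ‖σ (b : K)‖ ≤ (2 : ℝ) ^ h) (σ : K →+* ℂ)
    (hle : ‖σ (a : K)‖ ≤ ‖σ (b : K)‖) {β : Fin 2 → ℤ} (hβ : ∀ i, (β i).natAbs ≤ 2 ^ m)
    (hne : (β 0 : ℂ) * Complex.log (σ (a : K) / σ (b : K)) + (β 1 : ℂ) * (π * Complex.I) ≠ 0) :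
    1 / (2 : ℝ) ^ ((2 ^ 34 * d * (d * h + 4 + m)) ^ 42) ≤
      ‖(β 0 : ℂ) * Complex.log (σ (a : K) / σ (b : K)) + (β 1 : ℂ) * (π * Complex.I)‖ := by
  have hbK : (b : K) ≠ 0 := RingOfIntegers.coe_ne_zero_iff.2 hb
  have hw0 : σ (a : K) / σ (b : K) ≠ 0 := div_ne_zero
    ((map_ne_zero σ).2 (RingOfIntegers.coe_ne_zero_iff.2 ha)) ((map_ne_zero σ).2 hbK)
  set D := Ideal.absNorm (Ideal.span {b}) with hD
  obtain ⟨t, ht⟩ : b ∣ (D : 𝓞 K) :=
    Ideal.mem_span_singleton.1 (Ideal.absNorm_mem (Ideal.span {b}))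
  have hint : ∀ i, IsIntegral ℤ ((D : K) * ![(a : K) / (b : K), -1] i) := by
    refine Fin.forall_fin_two.2 ⟨?_, ?_⟩
    · have e : (D : K) * ((a : K) / (b : K)) = ((t * a : 𝓞 K) : K) := by
        rw [show (D : K) = ((D : 𝓞 K) : K) from (map_natCast _ _).symm, ht]
        simp only [map_mul]
        field_simp
      simpa only [Matrix.cons_val_zero, e] using (t * a).isIntegral_coe
    · rw [show (D : K) * ![(a : K) / (b : K), -1] 1 = ((-(D : 𝓞 K) : 𝓞 K) : K) by simp]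
      exact RingOfIntegers.isIntegral_coe _
  have hsize : ∀ i (τ : K →+* ℂ),
      ‖τ (![(a : K) / (b : K), -1] i)‖ ≤ (2 : ℝ) ^ (d * h + 4) := by
    refine Fin.forall_fin_two.2 ⟨fun τ => ?_, fun τ => ?_⟩
    · rw [Matrix.cons_val_zero, map_div₀]
      exact (norm_div_le hd hb hah hbh τ).trans (pow_le_pow_right₀ one_le_two (by omega))
    · simpa using one_le_pow₀ (M₀ := ℝ) (n := d * h + 4) one_le_two
  have hexp : ∀ i, Complex.exp (![Complex.log (σ (a : K) / σ (b : K)), π * Complex.I] i) =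
      σ (![(a : K) / (b : K), -1] i) :=
    Fin.forall_fin_two.2 ⟨by simp [Complex.exp_log hw0], by simp [Complex.exp_pi_mul_I]⟩
  have hl : ∀ i, ‖![Complex.log (σ (a : K) / σ (b : K)), π * Complex.I] i‖ ≤
      ((d * h + 4 : ℕ) : ℝ) := by
    refine Fin.forall_fin_two.2 ⟨?_, ?_⟩
    · rw [Matrix.cons_val_zero]
      exact norm_log_le hd ha hb hah hbh σ hle
    · rw [Matrix.cons_val_one, Matrix.cons_val_fin_one, norm_mul, Complex.norm_real,
        Complex.norm_I, mul_one, norm_eq_abs, abs_of_pos pi_pos]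
      push_cast
      nlinarith [pi_lt_four, mul_nonneg (Nat.cast_nonneg (α := ℝ) d) (Nat.cast_nonneg (α := ℝ) h)]
  have hB := BakerExplicit.EffectiveThue.baker_algebraic_general hd σ (n := 2) (D := D)
    (absNorm_span_pos hb) hint
    (Nat.cast_le (α := ℝ).1 (by
      push_cast
      exact (house_norm_bound hd hbh).trans (pow_le_pow_right₀ one_le_two (by omega))))
    hsize (m := m) hexp hl (b := β) hβ
    (by simpa [Fin.sum_univ_two] using hne)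
  simpa [Fin.sum_univ_two] using hB

/-- **Baker's bound for the distance of a power from `1`.** -/
theorem log_dist_one {d h m : ℕ} (hd : finrank ℚ K ≤ d) {a b : 𝓞 K} (ha : a ≠ 0) (hb : b ≠ 0)
    (hah : ∀ σ : K →+* ℂ, ‖σ (a : K)‖ ≤ (2 : ℝ) ^ h)
    (hbh : ∀ σ : K →+* ℂ, ‖σ (b : K)‖ ≤ (2 : ℝ) ^ h)
    (hab : ∀ i : ℕ, 0 < i → ((a : K) / (b : K)) ^ i ≠ 1) (σ : K →+* ℂ)
    (hle : ‖σ (a : K)‖ ≤ ‖σ (b : K)‖) {j : ℕ} (hj : 0 < j) (hjm : 2 * j ≤ 2 ^ m) :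
    -(distExponent d h m : ℝ) * log 2 ≤ log ‖(σ (a : K) / σ (b : K)) ^ j - 1‖ := by
  have hw0 : σ (a : K) / σ (b : K) ≠ 0 := div_ne_zero
    ((map_ne_zero σ).2 (RingOfIntegers.coe_ne_zero_iff.2 ha))
    ((map_ne_zero σ).2 (RingOfIntegers.coe_ne_zero_iff.2 hb))
  set w : ℂ := σ (a : K) / σ (b : K) with hw
  have hne : w ^ j - 1 ≠ 0 := fun h0 => hab j hj (σ.injective (by
    rw [map_pow, map_div₀, map_one]
    exact sub_eq_zero.1 h0))
  suffices hdist : 1 / (2 : ℝ) ^ distExponent d h m ≤ ‖w ^ j - 1‖ by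
    have h1 := log_le_log (by positivity) hdist
    rw [one_div, log_inv, log_pow] at h1
    linarith
  rcases lt_or_ge (1 / 2 : ℝ) ‖w ^ j - 1‖ with hbig | hsmall
  · refine le_trans ?_ hbig.le
    exact one_div_le_one_div_of_le two_pos
      (le_self_pow₀ one_le_two (by unfold distExponent; omega))
  obtain ⟨k, hk, hnorm, hexp⟩ := exists_winding hw0 hj hsmall
  have heq : ((j : ℤ) : ℂ) * Complex.log w + ((2 * k : ℤ) : ℂ) * (π * Complex.I) =
      (j : ℂ) * Complex.log w + (k : ℂ) * (2 * π * Complex.I) := by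
    push_cast
    ring
  have hB := baker_two (m := m) hd ha hb hah hbh σ hle (β := ![(j : ℤ), 2 * k])
    (Fin.forall_fin_two.2 ⟨by simp; omega, by simp [Int.natAbs_mul]; omega⟩)
    (by
      simp only [Matrix.cons_val_zero, Matrix.cons_val_one, Matrix.cons_val_fin_one]
      rw [← hw, heq]
      intro h0
      rw [h0, Complex.exp_zero] at hexp
      exact hne (sub_eq_zero.2 hexp.symm))
  simp only [Matrix.cons_val_zero, Matrix.cons_val_one, Matrix.cons_val_fin_one] at hB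
  rw [← hw, heq] at hB
  unfold distExponent
  generalize (2 ^ 34 * d * (d * h + 4 + m)) ^ 42 = e at hB ⊢
  rw [pow_succ, ← div_div]
  have : (0 : ℝ) ≤ 1 / (2 : ℝ) ^ e := by positivity
  linarith

end dist

section inversion

open Polynomial in
/-- **The size of a homogeneous cyclotomic value.** -/
theorem abs_log_homog_cyclotomic {A B : ℂ} (hB : B ≠ 0) (hAB : ∀ i : ℕ, 0 < i → (A / B) ^ i ≠ 1)
    {n : ℕ} (hn : n ≠ 0) {M E : ℝ} (hE : ∀ j ∈ n.divisors, |log ‖A ^ j - B ^ j‖ - j * M| ≤ E) :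
    |log ‖B ^ n.totient * (cyclotomic n ℂ).eval (A / B)‖ - n.totient * M| ≤
      2 ^ n.primeFactors.card * E := by
  have hΦ : ∀ i : ℕ, 0 < i → ‖B ^ i.totient * (cyclotomic i ℂ).eval (A / B)‖ ≠ 0 := fun i hi => by
    refine norm_ne_zero_iff.2 (mul_ne_zero (pow_ne_zero _ hB) fun h0 => hAB i hi ?_)
    have := congrArg (fun p : ℂ[X] => p.eval (A / B)) (prod_cyclotomic_eq_X_pow_sub_one hi ℂ)
    simp only [eval_prod, eval_sub, eval_pow, eval_X, eval_one] at this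
    rw [prod_eq_zero (Nat.mem_divisors_self i hi.ne') h0] at this
    exact sub_eq_zero.1 this.symm
  have key : ∀ N : ℕ, N > 0 → ∑ i ∈ N.divisors,
      (log ‖B ^ i.totient * (cyclotomic i ℂ).eval (A / B)‖ - i.totient * M) =
        log ‖A ^ N - B ^ N‖ - N * M := by
    intro N hN
    rw [sum_sub_distrib, ← sum_mul, ← Nat.cast_sum, Nat.sum_totient,
      ← log_prod fun i hi => hΦ i (Nat.pos_of_mem_divisors hi), ← norm_prod, prod_mul_distrib,
      prod_pow_eq_pow_sum, Nat.sum_totient, ← eval_prod, prod_cyclotomic_eq_X_pow_sub_one hN]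
    simp only [eval_sub, eval_pow, eval_X, eval_one]
    rw [div_pow, mul_sub, mul_one, mul_div_cancel₀ _ (pow_ne_zero _ hB)]
  rw [← (ArithmeticFunction.sum_eq_iff_sum_smul_moebius_eq.1 key) n (Nat.pos_of_ne_zero hn),
    ← sum_abs_moebius hn, sum_mul,
    Nat.sum_divisorsAntidiagonal (f := fun x y =>
      ArithmeticFunction.moebius x • (log ‖A ^ y - B ^ y‖ - (y : ℝ) * M))]
  refine (abs_sum_le_sum_abs _ _).trans (sum_le_sum fun x hx => ?_)
  rw [zsmul_eq_mul, abs_mul]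
  exact mul_le_mul_of_nonneg_left
    (hE _ (Nat.mem_divisors.2 ⟨Nat.div_dvd_of_dvd (Nat.dvd_of_mem_divisors hx), hn⟩)) (abs_nonneg _)

end inversion

section embedding

variable {K : Type*} [Field K] [NumberField K]

theorem abs_log_pow_sub_pow {d h m : ℕ} (hd : finrank ℚ K ≤ d) {a b : 𝓞 K} (ha : a ≠ 0)
    (hb : b ≠ 0) (hah : ∀ σ : K →+* ℂ, ‖σ (a : K)‖ ≤ (2 : ℝ) ^ h)
    (hbh : ∀ σ : K →+* ℂ, ‖σ (b : K)‖ ≤ (2 : ℝ) ^ h)
    (hab : ∀ i : ℕ, 0 < i → ((a : K) / (b : K)) ^ i ≠ 1) (σ : K →+* ℂ) {j : ℕ} (hj : 0 < j)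
    (hjm : 2 * j ≤ 2 ^ m) :
    |log ‖σ (a : K) ^ j - σ (b : K) ^ j‖ - j * log (max ‖σ (a : K)‖ ‖σ (b : K)‖)| ≤
      (distExponent d h m : ℝ) * log 2 := by
  wlog hle : ‖σ (a : K)‖ ≤ ‖σ (b : K)‖ generalizing a b
  · have hba : ∀ i : ℕ, 0 < i → ((b : K) / (a : K)) ^ i ≠ 1 := fun i hi h0 => hab i hi (by
      rw [← inv_div, inv_pow, h0, inv_one])
    rw [norm_sub_rev, max_comm]
    exact this hb ha hbh hah hba (le_of_not_ge hle)
  set A := σ (a : K)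
  set B := σ (b : K)
  have hB : 0 < ‖B‖ := norm_emb_pos σ hb
  have hAB : A ^ j - B ^ j = B ^ j * ((A / B) ^ j - 1) := by
    rw [div_pow, mul_sub, mul_one, mul_div_cancel₀ _ (pow_ne_zero _ (norm_pos_iff.1 hB))]
  have hne : (A / B) ^ j - 1 ≠ 0 := fun h0 => hab j hj (σ.injective (by
    rw [map_pow, map_div₀, map_one]
    exact sub_eq_zero.1 h0))
  rw [max_eq_right hle, hAB, norm_mul, norm_pow, log_mul (pow_ne_zero _ hB.ne')
    (norm_ne_zero_iff.2 hne), log_pow, add_sub_cancel_left, abs_le]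
  refine ⟨by have := log_dist_one hd ha hb hah hbh hab σ hle hj hjm; linarith, ?_⟩
  have h1 : ‖(A / B) ^ j - 1‖ ≤ 2 := by
    refine (norm_sub_le _ _).trans ?_
    rw [norm_pow, norm_div, norm_one]
    linarith [pow_le_one₀ (n := j) (by positivity) (div_le_one_of_le₀ hle hB.le)]
  refine (log_le_log (norm_pos_iff.2 hne) h1).trans ?_
  refine le_mul_of_one_le_left (log_nonneg one_le_two) ?_
  exact_mod_cast (show 1 ≤ distExponent d h m by unfold distExponent; omega)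

end embedding

end FA.Postnikova

end
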