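import Mathlib.Data.Nat.Totient
import Mathlib.NumberTheory.ArithmeticFunction.Moebius
import Mathlib.Data.Nat.Squarefree
import Mathlib.Algebra.Order.BigOperators.Ring.Finset
import Mathlib.Tactic

/-!
# Arithmetic of the index bound

The Möbius function is nonzero at `2 ^ ω(n)` divisors of `n`, and `(φ(n) / 2 ^ ω(n)) ^ 4` is at
least `n ^ 2 / 2 ^ 11`; so a multiple of `2 ^ ω(n)` by a power of `log n` is eventually below
`φ(n)`, with an explicit index.
-/

set_option autoImplicit false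

namespace FA.Postnikova

open Finset

/-- The index from which primitive divisors exist. -/
def primitiveIndexBound (d h : ℕ) : ℕ := 2 ^ (336 * (d * (h + d) + 64))

/-- The exponent in the lower bound for `|z ^ j - 1|`. -/
def distExponent (d h m : ℕ) : ℕ := (2 ^ 34 * d * (d * h + 4 + m)) ^ 42 + 1

theorem sum_abs_moebius {n : ℕ} (hn : n ≠ 0) :
    ∑ i ∈ n.divisors, |(ArithmeticFunction.moebius i : ℝ)| = 2 ^ n.primeFactors.card := by
  rw [← sum_filter_of_ne (p := fun i => Squarefree i) fun i _ hi =>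
    ArithmeticFunction.moebius_ne_zero_iff_squarefree.1 fun h0 => hi (by simp [h0])]
  rw [sum_congr rfl fun i hi => (by
    rw [← Int.cast_abs, ArithmeticFunction.abs_moebius_eq_one_of_squarefree (mem_filter.1 hi).2,
      Int.cast_one] : |(ArithmeticFunction.moebius i : ℝ)| = 1),
    Nat.sum_divisors_filter_squarefree hn, sum_const, card_powerset, nsmul_eq_mul, mul_one]
  rw [Nat.factors_eq, Nat.cast_pow, Nat.cast_ofNat]
  rfl

theorem prime_factor_bound {p : ℕ} (hp : p.Prime) :
    16 * p ^ 2 ≤ (if p = 2 then 64 else if p = 3 then 9 else if p = 5 then 2 else 1) *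
      (p - 1) ^ 4 := by
  rcases lt_or_ge p 7 with h | h
  · have := hp.two_le
    interval_cases p <;> simp_all (config := {decide := true})
  · obtain ⟨t, rfl⟩ : ∃ t, p = t + 7 := ⟨p - 7, by omega⟩
    rw [if_neg (by omega), if_neg (by omega), if_neg (by omega), one_mul,
      show t + 7 - 1 = t + 6 by omega]
    nlinarith [pow_two_nonneg t, mul_nonneg (Nat.zero_le t) (pow_two_nonneg t)]

theorem sq_mul_le_totient {n : ℕ} (hn : n ≠ 0) :
    n ^ 2 * (2 ^ n.primeFactors.card) ^ 4 ≤ 2 ^ 11 * n.totient ^ 4 := by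
  set P := n.primeFactors with hP
  set c : ℕ → ℕ := fun p => if p = 2 then 64 else if p = 3 then 9 else if p = 5 then 2 else 1
  have h1 : ∏ p ∈ P, 16 * p ^ 2 ≤ ∏ p ∈ P, c p * (p - 1) ^ 4 :=
    prod_le_prod' fun p hp => prime_factor_bound (Nat.prime_of_mem_primeFactors hp)
  have h2 : ∏ p ∈ P, c p ≤ 2 ^ 11 := by
    calc ∏ p ∈ P, c p = ∏ p ∈ P.filter (· ∈ ({2, 3, 5} : Finset ℕ)), c p := by
          refine (prod_filter_of_ne fun p _ hp => ?_).symm
          simp only [c] at hp
          split_ifs at hp <;> simp_all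
      _ ≤ ∏ p ∈ ({2, 3, 5} : Finset ℕ), c p :=
          prod_le_prod_of_subset_of_one_le' (fun p hp => (mem_filter.1 hp).2) fun p _ _ => by
            simp only [c]; split_ifs <;> norm_num
      _ ≤ _ := by decide
  have h3 : ∏ p ∈ P, p ≤ n := Nat.le_of_dvd (Nat.pos_of_ne_zero hn) (Nat.prod_primeFactors_dvd n)
  have h4 := Nat.totient_mul_prod_primeFactors n
  rw [prod_mul_distrib, prod_mul_distrib, prod_const, prod_pow, prod_pow] at h1
  set R := ∏ p ∈ P, p
  set Q := ∏ p ∈ P, (p - 1)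
  have hR : 0 < R := prod_pos fun p hp => (Nat.prime_of_mem_primeFactors hp).pos
  refine Nat.le_of_mul_le_mul_right ?_ (pow_pos hR 4)
  calc n ^ 2 * (2 ^ P.card) ^ 4 * R ^ 4 = n ^ 2 * R ^ 2 * (16 ^ P.card * R ^ 2) := by
        rw [← pow_mul, mul_comm P.card, pow_mul]; ring
    _ ≤ n ^ 2 * n ^ 2 * (2 ^ 11 * Q ^ 4) := Nat.mul_le_mul
        (Nat.mul_le_mul_left _ (Nat.pow_le_pow_left h3 2))
        (h1.trans (Nat.mul_le_mul_right _ h2))
    _ = 2 ^ 11 * (n.totient * R) ^ 4 := by rw [h4]; ring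
    _ = _ := by ring

theorem mul_succ_le_two_pow : ∀ {q : ℕ}, 14 ≤ q → 512 * (q + 1) ≤ 2 ^ q := fun {q} hq => by
  induction q, hq using Nat.le_induction with
  | base => norm_num
  | succ k _ ih => rw [pow_succ]; omega

/-- **The index bound is large enough.** -/
theorem index_bound {d h n : ℕ} (hd : 1 ≤ d) (hn : primitiveIndexBound d h ≤ n) :
    2 ^ (3 * d) * (d * (Nat.log2 n + 2) +
      d * (2 ^ n.primeFactors.card * distExponent d h (Nat.log2 n + 2))) < n.totient := by
  unfold primitiveIndexBound at hn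
  generalize hT : d * (h + d) + 64 = T at hn
  have hn0 : n ≠ 0 := (lt_of_lt_of_le (Nat.two_pow_pos _) hn).ne'
  set L := Nat.log2 n with hL
  have hTL : 336 * T ≤ L := (Nat.le_log2 hn0).2 hn
  set q := L / 336 with hq
  have hTq : T ≤ q := (Nat.le_div_iff_mul_le (by norm_num)).2 (by omega)
  have hLq : L < 336 * (q + 1) := by omega
  have hdh : d * h + d * d + 64 ≤ q := by rw [← mul_add, hT]; omega
  have hdd : d ≤ d * d := Nat.le_mul_self d
  have hsize : d * h + 4 + (L + 2) ≤ 2 ^ q := by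
    have := mul_succ_le_two_pow (q := q) (by omega)
    omega
  have hexp : L + 2 ≤ (2 ^ 34 * d * (d * h + 4 + (L + 2))) ^ 42 := by
    refine le_trans ?_ (Nat.le_self_pow (by norm_num) _)
    calc L + 2 ≤ 1 * (d * h + 4 + (L + 2)) := by omega
      _ ≤ _ := Nat.mul_le_mul_right _ (one_le_mul (Nat.one_le_two_pow) hd)
  have hM : distExponent d h (L + 2) ≤ 2 ^ (42 * (34 + d + q) + 1) := by
    have h1 : (2 ^ 34 * d * (d * h + 4 + (L + 2))) ^ 42 ≤ 2 ^ (42 * (34 + d + q)) := by
      rw [mul_comm 42, pow_mul]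
      refine Nat.pow_le_pow_left ?_ _
      rw [pow_add, pow_add]
      exact Nat.mul_le_mul (Nat.mul_le_mul_left _ Nat.lt_two_pow_self.le) hsize
    have := Nat.one_le_two_pow (n := 42 * (34 + d + q))
    unfold distExponent
    rw [pow_succ 2 (42 * (34 + d + q))]
    omega
  set W := 2 ^ n.primeFactors.card with hW
  set M := distExponent d h (L + 2) with hMdef
  have hLM : L + 2 ≤ W * M := by
    refine le_trans ?_ (Nat.le_mul_of_pos_left _ (Nat.two_pow_pos _))
    simp only [hMdef, distExponent]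
    omega
  have hC : 2 ^ (3 * d) * (d * (L + 2) + d * (W * M)) ≤
      W * 2 ^ (4 * d + 42 * (34 + d + q) + 2) := by
    calc 2 ^ (3 * d) * (d * (L + 2) + d * (W * M)) ≤ 2 ^ (3 * d) * (2 ^ d * (2 * (W * M))) := by
          gcongr
          rw [← mul_add]
          exact Nat.mul_le_mul Nat.lt_two_pow_self.le (by omega)
      _ ≤ 2 ^ (3 * d) * (2 ^ d * (2 * (W * 2 ^ (42 * (34 + d + q) + 1)))) := by gcongr
      _ = _ := by
          generalize 42 * (34 + d + q) = e
          ring
  refine hC.trans_lt ?_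
  by_contra hle
  push Not at hle
  have h1 := (sq_mul_le_totient hn0).trans (Nat.mul_le_mul_left _ (Nat.pow_le_pow_left hle 4))
  rw [← hW, mul_pow, ← mul_assoc, mul_comm (2 ^ 11), mul_comm (n ^ 2), mul_assoc] at h1
  have h2 := Nat.le_of_mul_le_mul_left h1 (pow_pos (Nat.two_pow_pos _) 4)
  rw [← pow_mul, ← pow_add] at h2
  have h3 : (2 ^ L) ^ 2 ≤ n ^ 2 := Nat.pow_le_pow_left (Nat.log2_self_le hn0) 2
  rw [← pow_mul] at h3
  have h4 := (Nat.pow_le_pow_iff_right (by norm_num : 1 < 2)).1 (h3.trans h2)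
  omega

end FA.Postnikova
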