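import Fermat.Agent.Postnikova.Main
import Mathlib.FieldTheory.IntermediateField.Adjoin.Basic

/-!
# Multiplicative orders, coprime pairs and Lehmer sequences

The primitive divisor theorem in terms of the orders of a number, of the differences
`a ^ n - b ^ n` of coprime integers of a number field, and of the sequences of Lucas and Lehmer
with arbitrary complex roots.
-/

set_option autoImplicit false
set_option linter.unusedSectionVars false

noncomputable section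

namespace FA.Postnikova

open Finset NumberField IsDedekindDomain Module Polynomial

section field

variable {K : Type*} [Field K] [NumberField K]

theorem valuation_eq_one_of_order {v : HeightOneSpectrum (𝓞 K)} {x : K} {n : ℕ} (hn : 0 < n)
    (h : v.valuation K (x ^ n - 1) < 1) : v.valuation K x = 1 := by
  have h1 : v.valuation K (x ^ n) = 1 := by
    rw [← sub_add_cancel (x ^ n) 1, add_comm]
    exact (v.valuation K).map_one_add_of_lt h
  rw [map_pow] at h1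
  exact (pow_eq_one_iff.1 h1).resolve_right hn.ne'

theorem dvd_absNorm_sub_one {v : HeightOneSpectrum (𝓞 K)} {x : K} {n : ℕ} (hn : 0 < n)
    (h : ∀ j : ℕ, v.valuation K (x ^ j - 1) < 1 ↔ n ∣ j) :
    n ∣ Ideal.absNorm v.asIdeal - 1 :=
  (h _).1 (exists_period (valuation_eq_one_of_order hn ((h n).2 dvd_rfl))).2

theorem exists_house_bound (a b : 𝓞 K) : ∃ h : ℕ,
    (∀ σ : K →+* ℂ, ‖σ (a : K)‖ ≤ (2 : ℝ) ^ h) ∧ ∀ σ : K →+* ℂ, ‖σ (b : K)‖ ≤ (2 : ℝ) ^ h := by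
  obtain ⟨h, hh⟩ := pow_unbounded_of_one_lt
    (∑ σ : K →+* ℂ, (‖σ (a : K)‖ + ‖σ (b : K)‖)) (one_lt_two (α := ℝ))
  refine ⟨h, fun σ => ?_, fun σ => ?_⟩ <;>
    refine le_trans ?_ ((single_le_sum (f := fun τ : K →+* ℂ => ‖τ (a : K)‖ + ‖τ (b : K)‖)
      (fun τ _ => by positivity) (mem_univ σ)).trans hh.le) <;>
    simp

/-- **Almost every number is a multiplicative order.** -/
theorem eventually_order_iff {α : K} (hα : α ≠ 0) :
    (∃ N : ℕ, ∀ n ≥ N, ∃ v : HeightOneSpectrum (𝓞 K),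
        ∀ j : ℕ, v.valuation K (α ^ j - 1) < 1 ↔ n ∣ j) ↔
      ∀ i : ℕ, 0 < i → α ^ i ≠ 1 := by
  constructor
  · rintro ⟨N, hN⟩ i hi h1
    obtain ⟨v, hv⟩ := hN (max N (i + 1)) (le_max_left _ _)
    have := Nat.le_of_dvd hi ((hv i).1 (by rw [h1, sub_self, map_zero]; exact zero_lt_one))
    omega
  · intro hroot
    obtain ⟨a, b, hb, hab⟩ := IsFractionRing.div_surjective (𝓞 K) α
    have hb0 : b ≠ 0 := nonZeroDivisors.ne_zero hb
    have ha : a ≠ 0 := fun h0 => hα (by rw [← hab, h0, map_zero, zero_div])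
    obtain ⟨h, hah, hbh⟩ := exists_house_bound a b
    refine ⟨primitiveIndexBound (finrank ℚ K) h, fun n hn => ?_⟩
    rw [← hab]
    exact exists_primitive_prime le_rfl ha hb0 hah hbh
      (fun i hi => by rw [hab]; exact hroot i hi) hn

/-- **Coprime integers of a number field.** -/
theorem exists_primitive_ideal {d h n : ℕ} (hd : finrank ℚ K ≤ d) {a b : 𝓞 K} (ha : a ≠ 0)
    (hb : b ≠ 0) (hab : IsCoprime a b) (hah : ∀ σ : K →+* ℂ, ‖σ (a : K)‖ ≤ (2 : ℝ) ^ h)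
    (hbh : ∀ σ : K →+* ℂ, ‖σ (b : K)‖ ≤ (2 : ℝ) ^ h)
    (hroot : ∀ i : ℕ, 0 < i → a ^ i ≠ b ^ i) (hn : primitiveIndexBound d h ≤ n) :
    ∃ v : HeightOneSpectrum (𝓞 K), (∀ j : ℕ, a ^ j - b ^ j ∈ v.asIdeal ↔ n ∣ j) ∧
      n ∣ Ideal.absNorm v.asIdeal - 1 := by
  have hbK : (b : K) ≠ 0 := RingOfIntegers.coe_ne_zero_iff.2 hb
  have hr : ∀ i : ℕ, 0 < i → ((a : K) / (b : K)) ^ i ≠ 1 := fun i hi h1 => hroot i hi (by
    rw [div_pow, div_eq_one_iff_eq (pow_ne_zero i hbK), ← map_pow, ← map_pow] at h1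
    exact RingOfIntegers.coe_injective h1)
  obtain ⟨v, hv⟩ := exists_primitive_prime hd ha hb hah hbh hr hn
  have hn0 : 0 < n := (Nat.two_pow_pos _).trans_le hn
  refine ⟨v, fun j => ?_, dvd_absNorm_sub_one hn0 hv⟩
  have hw := valuation_eq_one_of_order hn0 ((hv n).2 dvd_rfl)
  rw [map_div₀, div_eq_one_iff_eq ((Valuation.ne_zero_iff _).2 hbK)] at hw
  have hb1 : v.valuation K (b : K) = 1 := by
    refine (v.valuation_le_one b).eq_of_not_lt fun hlt => v.isPrime.ne_top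
      ((Ideal.eq_top_iff_one _).2 ?_)
    obtain ⟨s, t, hst⟩ := hab
    have hlta : v.valuation K (a : K) < 1 := hw ▸ hlt
    rw [HeightOneSpectrum.valuation_lt_one_iff_mem] at hlt hlta
    rw [← hst]
    exact add_mem (Ideal.mul_mem_left _ _ hlta) (Ideal.mul_mem_left _ _ hlt)
  rw [← hv j, ← HeightOneSpectrum.valuation_lt_one_iff_mem (K := K)]
  refine iff_of_eq (congrArg (· < 1) ?_)
  have e : ((a ^ j - b ^ j : 𝓞 K) : K) = (b : K) ^ j * (((a : K) / (b : K)) ^ j - 1) := by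
    simp only [map_sub, map_pow]
    rw [mul_sub, mul_one, ← mul_pow, mul_div_cancel₀ _ hbK]
  refine (congrArg (v.valuation K) e).trans ?_
  rw [map_mul, map_pow, hb1, one_pow, one_mul]

theorem exists_residue_prime (v : HeightOneSpectrum (𝓞 K)) :
    ∃ p : ℕ, p.Prime ∧ ∀ z : ℤ, v.valuation K (z : K) < 1 ↔ (p : ℤ) ∣ z := by
  have := v.isMaximal
  let : Field (𝓞 K ⧸ v.asIdeal) := Ideal.Quotient.field _
  have : Finite (𝓞 K ⧸ v.asIdeal) := Ideal.finiteQuotientOfFreeOfNeBot _ v.ne_bot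
  refine ⟨ringChar (𝓞 K ⧸ v.asIdeal), CharP.char_is_prime (𝓞 K ⧸ v.asIdeal) _, fun z => ?_⟩
  rw [show (z : K) = ((z : 𝓞 K) : K) from (map_intCast _ z).symm,
    HeightOneSpectrum.valuation_lt_one_iff_mem, ← Ideal.Quotient.eq_zero_iff_mem, map_intCast,
    CharP.intCast_eq_zero_iff _ (ringChar (𝓞 K ⧸ v.asIdeal))]

end field

theorem norm_sq_le {R Q : ℤ} {k : ℕ} (hR : R.natAbs ≤ 2 ^ k) (hQ : Q.natAbs ≤ 2 ^ k) {z : ℂ}
    (hz : z ^ 4 = ((R - 2 * Q : ℤ) : ℂ) * z ^ 2 - (Q : ℂ) ^ 2) : ‖z‖ ≤ (2 : ℝ) ^ (k + 2) := by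
  set X : ℝ := ‖z‖ with hX
  have hX0 : 0 ≤ X := norm_nonneg z
  have hQ' : |(Q : ℝ)| ≤ (2 : ℝ) ^ k := by
    rw [← Int.cast_abs, Int.abs_eq_natAbs]
    exact_mod_cast hQ
  have hR' : |(R : ℝ)| ≤ (2 : ℝ) ^ k := by
    rw [← Int.cast_abs, Int.abs_eq_natAbs]
    exact_mod_cast hR
  have h1 : X ^ 4 ≤ 3 * 2 ^ k * X ^ 2 + (2 ^ k) ^ 2 := by
    rw [hX, ← norm_pow, hz]
    refine (norm_sub_le _ _).trans (add_le_add ?_ ?_)
    · rw [norm_mul, norm_pow, Complex.norm_intCast]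
      refine mul_le_mul_of_nonneg_right ?_ (by positivity)
      push_cast
      calc |(R : ℝ) - 2 * Q| ≤ |(R : ℝ)| + |2 * (Q : ℝ)| := abs_sub _ _
        _ ≤ _ := by rw [abs_mul, abs_two]; linarith
    · rw [norm_pow, Complex.norm_intCast]
      exact pow_le_pow_left₀ (abs_nonneg _) hQ' 2
  by_contra hlt
  push Not at hlt
  have hY : (1 : ℝ) ≤ 2 ^ k := one_le_pow₀ one_le_two
  rw [pow_add] at hlt
  norm_num at hlt
  have h2 : 4 * (2 : ℝ) ^ k * (2 ^ k) ≤ X ^ 2 := by nlinarith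
  have h3 : 4 * (2 : ℝ) ^ k ≤ X ^ 2 := by nlinarith
  nlinarith [mul_le_mul h3 le_rfl (by positivity) (sq_nonneg X),
    pow_pos (two_pos : (0 : ℝ) < 2) k]

/-- **Lehmer sequences from their fields**: a primitive prime for `A / B` in a field of degree at
most four, `A` and `B` having conjugates at most `2 ^ (k + 2)`, gives one for the sequence. -/
theorem lehmer_primitive_of {k n : ℕ} {R Q : ℤ} (hco : IsCoprime R Q) (hR : R.natAbs ≤ 2 ^ k)
    (hQ : Q.natAbs ≤ 2 ^ k) {α β : ℂ} (hs : (α + β) ^ 2 = R) (hp : α * β = Q) (hQ0 : Q ≠ 0)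
    (hnd : ∀ i : ℕ, 0 < i → α ^ i ≠ β ^ i) (hn : 2 < n)
    (hprime : ∀ (F : IntermediateField ℚ ℂ) [NumberField F] (a b : 𝓞 F), finrank ℚ F ≤ 4 →
      a ≠ 0 → b ≠ 0 → (∀ σ : F →+* ℂ, ‖σ (a : F)‖ ≤ (2 : ℝ) ^ (k + 2)) →
      (∀ σ : F →+* ℂ, ‖σ (b : F)‖ ≤ (2 : ℝ) ^ (k + 2)) →
      (∀ i : ℕ, 0 < i → ((a : F) / (b : F)) ^ i ≠ 1) →
      ∃ v : HeightOneSpectrum (𝓞 F),
        ∀ j : ℕ, v.valuation F (((a : F) / (b : F)) ^ j - 1) < 1 ↔ n ∣ j) :
    ∃ p : ℕ, p.Prime ∧ ¬ (p : ℤ) ∣ Q * R * (R - 4 * Q) ∧ ∀ (j : ℕ) (u : ℤ),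
      (u * (α - β) = α ^ j - β ^ j ∨ u * (α ^ 2 - β ^ 2) = α ^ j - β ^ j) →
        ((p : ℤ) ∣ u ↔ n ∣ j) := by
  have hα0 : α ≠ 0 := fun h0 => hQ0 (Int.cast_eq_zero.1 (by rw [← hp, h0, zero_mul]))
  set f : ℤ[X] := X ^ 4 - C (R - 2 * Q) * X ^ 2 + C (Q ^ 2) with hf
  have hfm : f.Monic := by rw [hf]; monicity!
  have hfd : f.natDegree = 4 := by rw [hf]; compute_degree!
  have hfα : aeval α f = 0 := by
    simp [hf, map_ofNat]
    linear_combination α ^ 2 * hs - (2 * α ^ 2 + α * β + (Q : ℂ)) * hp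
  have hint : IsIntegral ℤ α := ⟨f, hfm, hfα⟩
  set F : IntermediateField ℚ ℂ := IntermediateField.adjoin ℚ {α} with hFdef
  have : FiniteDimensional ℚ F :=
    IntermediateField.adjoin.finiteDimensional (hint.tower_top (A := ℚ))
  have : NumberField F := { to_charZero := inferInstance, to_finiteDimensional := inferInstance }
  have hd : finrank ℚ F ≤ 4 := by
    rw [hFdef, IntermediateField.adjoin.finrank (hint.tower_top (A := ℚ)), ← hfd,
      ← hfm.natDegree_map (algebraMap ℤ ℚ)]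
    exact natDegree_le_of_dvd (minpoly.dvd ℚ α (by rw [aeval_map_algebraMap, hfα]))
      (hfm.map _).ne_zero
  set A : F := ⟨α, IntermediateField.mem_adjoin_simple_self ℚ α⟩ with hA
  have hA0 : A ≠ 0 := fun h0 => hα0 (congrArg Subtype.val h0)
  obtain ⟨B, hB⟩ : ∃ B : F, B = (Q : F) / A := ⟨_, rfl⟩
  have hcA : ((A : F) : ℂ) = α := rfl
  have hcB : ((B : F) : ℂ) = β := by
    rw [hB, IntermediateField.coe_div, hcA, div_eq_iff hα0, mul_comm β, hp]
    simp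
  have inj : Function.Injective fun z : F => (z : ℂ) := Subtype.val_injective
  have hsF : (A + B) ^ 2 = (R : F) := inj (by simpa [hcA, hcB] using hs)
  have hpF : A * B = (Q : F) := inj (by simpa [hcA, hcB] using hp)
  have hroots : ∀ z : F, z = A ∨ z = B → z ^ 4 = ((R - 2 * Q : ℤ) : F) * z ^ 2 - (Q : F) ^ 2 := by
    rintro z (h | h) <;> rw [h]
    · push_cast
      linear_combination A ^ 2 * hsF - (2 * A ^ 2 + A * B + (Q : F)) * hpF
    · push_cast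
      linear_combination B ^ 2 * hsF - (2 * B ^ 2 + A * B + (Q : F)) * hpF
  have hzint : ∀ z : F, z = A ∨ z = B → IsIntegral ℤ z := fun z hz =>
    ⟨f, hfm, by rw [← aeval_def, hf]; simp [hroots z hz, map_ofNat]⟩
  set a : 𝓞 F := ⟨A, hzint A (.inl rfl)⟩ with ha
  set b : 𝓞 F := ⟨B, hzint B (.inr rfl)⟩ with hb
  have hca : (a : F) = A := rfl
  have hcb : (b : F) = B := rfl
  have hB0 : B ≠ 0 := hB ▸ div_ne_zero (Int.cast_ne_zero.2 hQ0) hA0
  have hhouse : ∀ (z : F), z = A ∨ z = B → ∀ σ : F →+* ℂ, ‖σ z‖ ≤ (2 : ℝ) ^ (k + 2) :=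
    fun z hz σ => norm_sq_le hR hQ (by
      rw [← map_intCast σ, ← map_intCast σ Q, ← map_pow, ← map_pow, ← map_pow, ← map_mul,
        ← map_sub, hroots z hz])
  have hndF : ∀ i : ℕ, 0 < i → (A / B) ^ i ≠ 1 := fun i hi h1 => hnd i hi (by
    rw [div_pow, div_eq_one_iff_eq (pow_ne_zero i hB0)] at h1
    simpa [hcA, hcB] using congrArg (fun z : F => (z : ℂ)) h1)
  obtain ⟨v, hv⟩ := hprime F a b hd (fun h0 => hA0 (by rw [← hca, h0]; rfl))
    (fun h0 => hB0 (by rw [← hcb, h0]; rfl)) (fun σ => hhouse A (.inl rfl) σ)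
    (fun σ => hhouse B (.inr rfl) σ) hndF
  rw [hca, hcb] at hv
  have hn1 : 2 < n := hn
  have hx := valuation_eq_one_of_order (x := A / B) (by omega) ((hv n).2 dvd_rfl)
  set w := v.valuation F with hw
  rw [map_div₀, div_eq_one_iff_eq ((Valuation.ne_zero_iff _).2 hB0)] at hx
  obtain ⟨p, hpp, hpv⟩ := exists_residue_prime v
  have hB1 : w B = 1 := by
    refine (hcb ▸ v.valuation_le_one b : w B ≤ 1).eq_of_not_lt fun hlt => ?_
    have hQp : (p : ℤ) ∣ Q := (hpv Q).1 (by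
      rw [← hw, ← hpF, map_mul, hx]
      exact (mul_le_of_le_one_left zero_le hlt.le).trans_lt hlt)
    have hRp : (p : ℤ) ∣ R := (hpv R).1 (by
      rw [← hw, ← hsF, map_pow]
      exact pow_lt_one' (w.map_add_lt (hx ▸ hlt) hlt) two_ne_zero)
    exact (Nat.prime_iff_prime_int.1 hpp).not_isUnit (hco.isUnit_of_dvd' hRp hQp)
  have hA1 : w A = 1 := hx.trans hB1
  have hscale : ∀ j, w (A ^ j - B ^ j) < 1 ↔ n ∣ j := fun j => by
    rw [← hv j, show A ^ j - B ^ j = B ^ j * ((A / B) ^ j - 1) by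
      rw [div_pow, mul_sub, mul_one, mul_div_cancel₀ _ (pow_ne_zero j hB0)], map_mul, map_pow,
      hB1, one_pow, one_mul]
  have hdiff : w (A - B) = 1 := by
    refine le_antisymm (w.map_sub_le hA1.le hB1.le) (not_lt.1 fun hlt => ?_)
    have := Nat.le_of_dvd one_pos ((hscale 1).1 (by simpa using hlt))
    omega
  have hsq : w (A ^ 2 - B ^ 2) = 1 := by
    refine le_antisymm (w.map_sub_le (by simp [hA1]) (by simp [hB1])) (not_lt.1 fun hlt => ?_)
    have := Nat.le_of_dvd two_pos ((hscale 2).1 hlt)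
    omega
  have hsum : w (A + B) = 1 := by
    rw [show A ^ 2 - B ^ 2 = (A + B) * (A - B) by ring, map_mul, hdiff, mul_one] at hsq
    exact hsq
  refine ⟨p, hpp, fun hdvd => ?_, fun j u hu => ?_⟩
  · have hD : ((R - 4 * Q : ℤ) : F) = (A - B) ^ 2 := by
      push_cast
      linear_combination -hsF + 4 * hpF
    have := (hpv (Q * R * (R - 4 * Q))).2 hdvd
    rw [Int.cast_mul, Int.cast_mul, hD, ← hpF, ← hsF, ← hw, map_mul, map_mul, map_mul, map_pow,
      map_pow, hA1, hB1, hdiff, hsum] at this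
    simp at this
  · rw [← hscale j, ← hpv u, ← hw]
    rcases hu with hu | hu
    · rw [← show (u : F) * (A - B) = A ^ j - B ^ j from inj (by simpa [hcA, hcB] using hu),
        map_mul, hdiff, mul_one]
    · rw [← show (u : F) * (A ^ 2 - B ^ 2) = A ^ j - B ^ j from inj (by simpa [hcA, hcB] using hu),
        map_mul, hsq, mul_one]

/-- **Lehmer sequences with arbitrary roots.** -/
theorem lehmer_primitive {k n : ℕ} {R Q : ℤ} (hco : IsCoprime R Q) (hR : R.natAbs ≤ 2 ^ k)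
    (hQ : Q.natAbs ≤ 2 ^ k) {α β : ℂ} (hs : (α + β) ^ 2 = R) (hp : α * β = Q) (hQ0 : Q ≠ 0)
    (hnd : ∀ i : ℕ, 0 < i → α ^ i ≠ β ^ i) (hn : primitiveIndexBound 4 (k + 2) ≤ n) :
    ∃ p : ℕ, p.Prime ∧ ¬ (p : ℤ) ∣ Q * R * (R - 4 * Q) ∧ ∀ (j : ℕ) (u : ℤ),
      (u * (α - β) = α ^ j - β ^ j ∨ u * (α ^ 2 - β ^ 2) = α ^ j - β ^ j) →
        ((p : ℤ) ∣ u ↔ n ∣ j) :=
  lehmer_primitive_of hco hR hQ hs hp hQ0 hnd
    (lt_of_lt_of_le (by have := pow_lt_primitiveIndexBound 4 (k + 2); omega) hn)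
    fun _ _ _ _ hd ha hb hah hbh hroot => exists_primitive_prime hd ha hb hah hbh hroot hn

/-- The ratio of the roots is a root of unity only if `P ^ 2 = c Q` with `c ≤ 4`. -/
theorem lucas_nondegenerate {P Q : ℤ} (hc : ∀ c : ℕ, c ≤ 4 → P ^ 2 ≠ c * Q) (hQ : Q ≠ 0)
    {α β : ℂ} (hs : α + β = P) (hp : α * β = Q) (i : ℕ) (hi : 0 < i) : α ^ i ≠ β ^ i := by
  intro heq
  have hβ : β ≠ 0 := fun h0 => hQ (Int.cast_eq_zero.1 (by rw [← hp, h0, mul_zero]))
  have hα : α ≠ 0 := fun h0 => hQ (Int.cast_eq_zero.1 (by rw [← hp, h0, zero_mul]))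
  set z := α / β with hz
  have hz1 : z ^ i = 1 := by rw [hz, div_pow, heq, div_self (pow_ne_zero i hβ)]
  have hz1' : z⁻¹ ^ i = 1 := by rw [inv_pow, hz1, inv_one]
  have hrat : z + z⁻¹ = (algebraMap ℚ ℂ) ((P : ℚ) ^ 2 / Q - 2) := by
    rw [map_sub, map_div₀, map_pow, map_intCast, map_intCast, map_ofNat, hz, inv_div, ← hs, ← hp]
    field_simp
    ring
  have hint : IsIntegral ℤ (z + z⁻¹) :=
    (IsIntegral.of_pow hi (by rw [hz1]; exact isIntegral_one)).add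
    (IsIntegral.of_pow hi (by rw [hz1']; exact isIntegral_one))
  rw [hrat, isIntegral_algebraMap_iff (algebraMap ℚ ℂ).injective] at hint
  obtain ⟨t, ht⟩ := IsIntegrallyClosed.isIntegral_iff.1 hint
  have hnorm : ∀ w : ℂ, w ^ i = 1 → ‖w‖ = 1 := fun w hw => by
    have := congrArg (fun y : ℂ => ‖y‖) hw
    simp only [norm_pow, norm_one] at this
    exact (pow_eq_one_iff_of_nonneg (norm_nonneg _) hi.ne').1 this
  have htb : |(t : ℝ)| ≤ 2 := by
    rw [← Complex.norm_intCast, show ((t : ℤ) : ℂ) = z + z⁻¹ by rw [hrat, ← ht]; simp]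
    refine (norm_add_le _ _).trans ?_
    rw [hnorm z hz1, hnorm z⁻¹ hz1']
    norm_num
  rw [← Int.cast_abs] at htb
  have htb' : |t| ≤ 2 := by exact_mod_cast htb
  obtain ⟨c, hct⟩ : ∃ c : ℕ, (c : ℤ) = t + 2 := ⟨(t + 2).toNat, Int.toNat_of_nonneg
    (by linarith [(abs_le.1 htb').1])⟩
  refine hc c (by have := (abs_le.1 htb').2; omega) ?_
  have : (P : ℚ) ^ 2 = ((c : ℤ) : ℚ) * Q := by
    rw [hct, Int.cast_add, eq_intCast] at *
    rw [ht]
    field_simp [Int.cast_ne_zero.2 hQ]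
    ring
  exact_mod_cast this

/-- **Lucas sequences with arbitrary roots.** -/
theorem lucas_primitive {k n : ℕ} {P Q : ℤ} (hco : IsCoprime P Q) (hP : P.natAbs ≤ 2 ^ k)
    (hQ : Q.natAbs ≤ 2 ^ k) (hc : ∀ c : ℕ, c ≤ 4 → P ^ 2 ≠ c * Q) (hQ0 : Q ≠ 0) {U : ℕ → ℤ}
    (h0 : U 0 = 0) (h1 : U 1 = 1) (hrec : ∀ j, U (j + 2) = P * U (j + 1) - Q * U j)
    (hn : primitiveIndexBound 4 (2 * k + 2) ≤ n) :
    ∃ p : ℕ, p.Prime ∧ ¬ (p : ℤ) ∣ Q * (P ^ 2 - 4 * Q) ∧ ∀ j : ℕ, (p : ℤ) ∣ U j ↔ n ∣ j := by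
  obtain ⟨r, hr⟩ := IsAlgClosed.exists_pow_nat_eq ((P : ℂ) ^ 2 - 4 * Q) two_pos
  set α : ℂ := ((P : ℂ) + r) / 2 with hα
  set β : ℂ := ((P : ℂ) - r) / 2 with hβ
  have hs : α + β = P := by rw [hα, hβ]; ring
  have hp : α * β = Q := by
    rw [hα, hβ]
    linear_combination -hr / 4
  have hU : ∀ j, (U j : ℂ) * (α - β) = α ^ j - β ^ j := by
    intro j
    induction j using Nat.twoStepInduction with
    | zero => simp [h0]
    | one => simp [h1]
    | more j i1 i2 =>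
      rw [hrec, Int.cast_sub, Int.cast_mul, Int.cast_mul, ← hs, ← hp]
      linear_combination (α + β) * i2 - α * β * i1
  obtain ⟨p, hpp, hnd, hall⟩ := lehmer_primitive (k := 2 * k) (R := P ^ 2) hco.pow_left
    (by rw [Int.natAbs_pow, mul_comm, pow_mul]; exact Nat.pow_le_pow_left hP 2)
    (hQ.trans (Nat.pow_le_pow_right two_pos (by omega))) (by rw [hs]; push_cast; ring) hp hQ0
    (lucas_nondegenerate hc hQ0 hs hp) hn
  exact ⟨p, hpp, fun h => hnd (by rw [mul_right_comm]; exact dvd_mul_of_dvd_left h _),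
    fun j => hall j (U j) (.inl (hU j))⟩

end FA.Postnikova

end
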