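import Fermat.Agent.MultSupport.Residue
import Mathlib.RingTheory.Polynomial.Cyclotomic.Basic
import Mathlib.RingTheory.Ideal.Norm.AbsNorm

/-!
# Imprimitive prime divisors of a cyclotomic value

At a prime where the element `x` of order `0` has residue of order less than `n`, and for
`n > (d + 1) ^ (2 d)` in degree `d`, the value `Φ n (x)` is divisible at most as often as `n`: the
quotient `n / m` by the order `m` of `x` is a power of the residue characteristic `p`, and
`Φ n (x)` divides `∑ i < p, y ^ i`, `y = x ^ (n / p)`, which has the valuation of `p` as `y` is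
close to `1`.
-/

set_option autoImplicit false
set_option linter.unusedSectionVars false

noncomputable section

namespace FA.Postnikova

open Finset NumberField IsDedekindDomain Module Polynomial WithZero
open FA.HasseCyclic (mem_nearOne)

variable {K : Type*} [Field K] [NumberField K] {v : HeightOneSpectrum (𝓞 K)}

theorem le_exp_neg_one {z : ℤᵐ⁰} (h : z < 1) : z ≤ exp (-1) := by
  rw [← lt_mul_exp_iff_le exp_ne_zero, ← exp_add, neg_add_cancel, exp_zero]
  exact h

theorem valuation_pow_sub_one_le {y : K} (hy : v.valuation K (y - 1) < 1) (q : ℕ) :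
    v.valuation K (y ^ q - 1) ≤ v.valuation K (y - 1) := by
  rw [← geom_sum_mul, map_mul]
  refine mul_le_of_le_one_left zero_le ((v.valuation K).map_sum_le fun i _ => ?_)
  have hy1 : v.valuation K y = 1 := by
    rw [← sub_add_cancel y 1, add_comm]
    exact (v.valuation K).map_one_add_of_lt hy
  rw [map_pow, hy1, one_pow]

/-- Fermat's little theorem in terms of valuations. -/
theorem exists_period {x : K} (hx : v.valuation K x = 1) :
    0 < Ideal.absNorm v.asIdeal - 1 ∧
      v.valuation K (x ^ (Ideal.absNorm v.asIdeal - 1) - 1) < 1 := by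
  have := v.isMaximal
  let : Field (𝓞 K ⧸ v.asIdeal) := Ideal.Quotient.field _
  have hcard : Nat.card (𝓞 K ⧸ v.asIdeal)ˣ = Ideal.absNorm v.asIdeal - 1 := by
    rw [Ideal.absNorm_apply, Submodule.cardQuot_apply, Nat.card_units]
  refine ⟨hcard ▸ Nat.card_pos, ?_⟩
  have hx0 : x ≠ 0 := fun h => by simp [h] at hx
  have hz : FA.ArtinRec.ord v (Units.mk0 x hx0) = 0 := by
    rw [FA.ArtinRec.ord_eq_iff, neg_zero, exp_zero, Units.val_mk0, hx]
  have h := mem_nearOne.1 (MultSupport.pow_card_units_mem_nearOne hz)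
  rw [Units.val_pow_eq_pow_val, Units.val_mk0, hcard] at h
  exact h.trans_lt (by rw [← exp_zero, exp_lt_exp]; omega)

/-- The exponents of congruence to `1` are the multiples of the least one. -/
theorem period_iff_dvd {x : K} (hx : v.valuation K x = 1) {m : ℕ} (hm : 0 < m)
    (h : v.valuation K (x ^ m - 1) < 1)
    (hmin : ∀ i, 0 < i → i < m → ¬ v.valuation K (x ^ i - 1) < 1) (j : ℕ) :
    v.valuation K (x ^ j - 1) < 1 ↔ m ∣ j := by
  constructor
  · intro hj
    by_contra hdvd
    refine hmin (j % m) (Nat.pos_of_ne_zero fun h0 => hdvd (Nat.dvd_of_mod_eq_zero h0))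
      (Nat.mod_lt _ hm) ?_
    have h1 : x ^ (j % m) - 1 = (x ^ j - 1) - x ^ (j % m) * ((x ^ m) ^ (j / m) - 1) := by
      rw [mul_sub, ← pow_mul, ← pow_add, Nat.mod_add_div, mul_one]
      ring
    rw [h1]
    refine ((v.valuation K).map_sub _ _).trans_lt (max_lt hj ?_)
    rw [map_mul, map_pow, hx, one_pow, one_mul]
    exact (valuation_pow_sub_one_le h _).trans_lt h
  · rintro ⟨q, rfl⟩
    rw [pow_mul]
    exact (valuation_pow_sub_one_le h q).trans_lt h

theorem valuation_natCast_le (k : ℕ) : v.valuation K (k : K) ≤ 1 :=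
  FA.HasseCyclic.valuation_natCast v k

/-- Sizes at a prime above `p`. -/
theorem prime_sizes {p : ℕ} (hp : p.Prime) (h : v.valuation K (p : K) < 1) :
    exp (-(finrank ℚ K : ℤ)) ≤ v.valuation K (p : K) ∧
      Ideal.absNorm v.asIdeal ≤ p ^ finrank ℚ K := by
  have hcast : (p : K) = ((p : 𝓞 K) : K) := (map_natCast _ _).symm
  have hmem : (p : 𝓞 K) ∈ v.asIdeal := by
    rwa [hcast, HeightOneSpectrum.valuation_lt_one_iff_mem] at h
  have hnorm : Ideal.absNorm (Ideal.span {(p : 𝓞 K)}) = p ^ finrank ℚ K := by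
    rw [Ideal.absNorm_span_singleton, ← map_natCast (algebraMap ℤ (𝓞 K)), Algebra.norm_algebraMap,
      RingOfIntegers.rank, Int.natAbs_pow, Int.natAbs_natCast]
  have hdvd : Ideal.absNorm v.asIdeal ∣ p ^ finrank ℚ K := hnorm ▸
    Ideal.absNorm_dvd_absNorm_of_le (Ideal.span_le.2 (Set.singleton_subset_iff.2 hmem))
  refine ⟨?_, Nat.le_of_dvd (pow_pos hp.pos _) hdvd⟩
  by_contra hlt
  push Not at hlt
  rw [hcast, show v.valuation K ((p : 𝓞 K) : K) = v.intValuation (p : 𝓞 K) from
    v.valuation_of_algebraMap _] at hlt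
  have hlt' : v.intValuation (p : 𝓞 K) ≤ exp (-((finrank ℚ K + 1 : ℕ) : ℤ)) := by
    rw [← lt_mul_exp_iff_le exp_ne_zero, ← exp_add]
    convert hlt using 2
    push_cast
    ring
  rw [v.intValuation_le_pow_iff_mem] at hlt'
  have hdvd' : Ideal.absNorm v.asIdeal ^ (finrank ℚ K + 1) ∣ p ^ finrank ℚ K := by
    rw [← map_pow, ← hnorm]
    exact Ideal.absNorm_dvd_absNorm_of_le (Ideal.span_le.2 (Set.singleton_subset_iff.2 hlt'))
  obtain ⟨f, -, hf⟩ := (Nat.dvd_prime_pow hp).1 hdvd
  rw [hf, ← pow_mul, Nat.pow_dvd_pow_iff_le_right hp.one_lt] at hdvd'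
  have hf0 : f ≠ 0 := fun h0 => by
    rw [h0, pow_zero, Ideal.absNorm_eq_one_iff] at hf
    exact v.isPrime.ne_top hf
  have : 1 * (finrank ℚ K + 1) ≤ f * (finrank ℚ K + 1) :=
    Nat.mul_le_mul_right _ (Nat.one_le_iff_ne_zero.2 hf0)
  omega

theorem natCast_lt_one_of_geomSum {y : K} (hy : v.valuation K (y - 1) < 1) {p : ℕ}
    (hS : v.valuation K (∑ i ∈ range p, y ^ i) < 1) : v.valuation K (p : K) < 1 := by
  have h1 : (p : K) = (∑ i ∈ range p, y ^ i) - ∑ i ∈ range p, (y ^ i - 1) := by
    simp [sum_sub_distrib]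
  rw [h1]
  refine ((v.valuation K).map_sub _ _).trans_lt (max_lt hS ?_)
  exact (v.valuation K).map_sum_lt one_ne_zero fun i _ =>
    (valuation_pow_sub_one_le hy i).trans_lt hy

/-- A `p`-th power is closer to `1`. -/
theorem valuation_pow_prime_sub_one {y : K} (hy : v.valuation K (y - 1) < 1) {p : ℕ}
    (hp : v.valuation K (p : K) < 1) :
    v.valuation K (y ^ p - 1) ≤ exp (-1) * v.valuation K (y - 1) := by
  rw [← geom_sum_mul, map_mul]
  refine mul_le_mul' (le_exp_neg_one ?_) le_rfl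
  have h1 : ∑ i ∈ range p, y ^ i = (p : K) + ∑ i ∈ range p, (y ^ i - 1) := by
    simp [sum_sub_distrib]
  rw [h1]
  exact (v.valuation K).map_add_lt hp ((v.valuation K).map_sum_lt one_ne_zero fun i _ =>
    (valuation_pow_sub_one_le hy i).trans_lt hy)

theorem valuation_pow_prime_pow_sub_one {y : K} (hy : v.valuation K (y - 1) < 1) {p : ℕ}
    (hp : v.valuation K (p : K) < 1) (j : ℕ) :
    v.valuation K (y ^ p ^ j - 1) ≤ exp (-((j + 1 : ℕ) : ℤ)) := by
  induction j with
  | zero => simpa using le_exp_neg_one hy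
  | succ j ih =>
    rw [pow_succ, pow_mul]
    refine (valuation_pow_prime_sub_one (ih.trans_lt (by
      rw [← exp_zero, exp_lt_exp]; omega)) hp).trans ?_
    refine (mul_le_mul' le_rfl ih).trans_eq ?_
    rw [← exp_add]
    congr 1
    push_cast
    ring

/-- **The geometric sum near `1`.** -/
theorem valuation_geomSum {y : K} (hy1 : y ≠ 1) {p : ℕ} (hp : p.Prime)
    (hpv : v.valuation K (p : K) < 1) (hy : v.valuation K (y - 1) < 1)
    (hu : v.valuation K (y - 1) ^ (p - 1) < v.valuation K (p : K)) :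
    v.valuation K (∑ i ∈ range p, y ^ i) = v.valuation K (p : K) := by
  set u := y - 1 with hudef
  have hu0 : u ≠ 0 := sub_ne_zero.2 hy1
  obtain ⟨q, rfl⟩ : ∃ q, p = q + 2 := ⟨p - 2, by have := hp.two_le; omega⟩
  have hS : ∑ i ∈ range (q + 2), y ^ i =
      ∑ i ∈ range (q + 2), u ^ i * ((q + 2).choose (i + 1) : K) := by
    refine mul_right_cancel₀ hu0 ?_
    rw [hudef, geom_sum_mul, ← hudef, show y = u + 1 by rw [hudef, sub_add_cancel], add_pow,
      sum_range_succ', sum_mul]
    simp only [one_pow, mul_one, pow_zero, Nat.choose_zero_right, Nat.cast_one,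
      add_sub_cancel_right]
    exact sum_congr rfl fun i _ => by ring
  rw [hS, sum_range_succ, sum_range_succ']
  simp only [pow_zero, one_mul, zero_add, Nat.choose_one_right, Nat.choose_self, Nat.cast_one,
    mul_one]
  have hp0 : v.valuation K ((q + 2 : ℕ) : K) ≠ 0 :=
    (Valuation.ne_zero_iff _).2 (Nat.cast_ne_zero.2 hp.ne_zero)
  rw [add_comm _ ((q + 2 : ℕ) : K), add_assoc]
  refine (v.valuation K).map_add_eq_of_lt_left ((v.valuation K).map_add_lt
    ((v.valuation K).map_sum_lt hp0 fun i hi => ?_) ?_)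
  · obtain ⟨c, hc⟩ := hp.dvd_choose_self (k := i + 1 + 1) (by omega)
      (by have := mem_range.1 hi; omega)
    rw [hc, Nat.cast_mul, ← mul_assoc, mul_comm (u ^ _), mul_assoc, map_mul, map_mul, map_pow]
    calc v.valuation K ((q + 2 : ℕ) : K) * (v.valuation K u ^ (i + 1) * v.valuation K (c : K))
        ≤ v.valuation K ((q + 2 : ℕ) : K) * (v.valuation K u ^ (i + 1) * 1) := by
          gcongr
          exact valuation_natCast_le c
      _ < v.valuation K ((q + 2 : ℕ) : K) * 1 := by
          rw [mul_one]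
          exact mul_lt_mul_of_pos_left (pow_lt_one' hy (Nat.succ_ne_zero i))
            (zero_lt_iff.2 hp0)
      _ = _ := mul_one _
  · rw [map_pow]
    exact hu

theorem valuation_eval_le_one (Q : ℤ[X]) {x : K} (hx : v.valuation K x = 1) :
    v.valuation K (aeval x Q) ≤ 1 := by
  rw [aeval_eq_sum_range]
  refine (v.valuation K).map_sum_le fun i _ => ?_
  rw [zsmul_eq_mul, map_mul, map_pow, hx, one_pow, mul_one,
    show ((Q.coeff i : ℤ) : K) = (((Q.coeff i : ℤ) : 𝓞 K) : K) from (map_intCast _ _).symm]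
  exact v.valuation_le_one _

theorem valuation_cyclotomic_mul_le {x : K} (hx : v.valuation K x = 1) {j n : ℕ}
    (hj : j ∈ n.properDivisors) (hne : x ^ j ≠ 1) {p : ℕ} (hnp : n = j * p) :
    v.valuation K (∑ i ∈ range p, (x ^ j) ^ i) ≤
      v.valuation K ((cyclotomic n K).eval x) := by
  subst hnp
  obtain ⟨Q, hQ⟩ := X_pow_sub_one_mul_cyclotomic_dvd_X_pow_sub_one_of_dvd ℤ hj
  have h := congrArg (aeval x) hQ
  simp only [map_sub, map_mul, map_pow, aeval_X, map_one] at h
  rw [pow_mul, ← geom_sum_mul, mul_assoc, mul_comm _ (x ^ j - 1)] at h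
  rw [mul_left_cancel₀ (sub_ne_zero.2 hne) h, aeval_def, eval₂_eq_eval_map, map_cyclotomic,
    map_mul]
  exact mul_le_of_le_one_right zero_le (valuation_eval_le_one Q hx)

theorem valuation_pow_sub_one_le_eval {x : K} (hx : v.valuation K x = 1) (n : ℕ) :
    v.valuation K (x ^ n - 1) ≤ v.valuation K ((cyclotomic n K).eval x) := by
  obtain ⟨Q, hQ⟩ := cyclotomic.dvd_X_pow_sub_one n ℤ
  have h := congrArg (aeval x) hQ
  simp only [map_sub, map_mul, map_pow, aeval_X, map_one] at h
  rw [h, aeval_def, eval₂_eq_eval_map, map_cyclotomic, map_mul]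
  exact mul_le_of_le_one_right zero_le (valuation_eval_le_one Q hx)

/-- **An imprimitive prime divides `Φ n (x)` at most as often as `n`.** -/
theorem imprimitive_valuation_le {d n : ℕ} (hd : finrank ℚ K ≤ d) (hn : (d + 1) ^ (2 * d) < n)
    {x : K} (hx : v.valuation K x = 1) (hroot : ∀ i : ℕ, 0 < i → x ^ i ≠ 1)
    (hprim : ¬ ∀ j : ℕ, v.valuation K (x ^ j - 1) < 1 ↔ n ∣ j) :
    v.valuation K (n : K) ≤ v.valuation K ((cyclotomic n K).eval x) := by
  classical
  rcases eq_or_lt_of_le (α := ℤᵐ⁰) (show v.valuation K ((cyclotomic n K).eval x) ≤ 1 by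
    rw [← map_cyclotomic_int, eval_map, ← algebraMap_int_eq, ← aeval_def]
    exact valuation_eval_le_one _ hx) with h1 | hlt
  · rw [h1]
    exact valuation_natCast_le n
  have hn0 : 0 < n := Nat.zero_lt_of_lt hn
  have hmn := (valuation_pow_sub_one_le_eval hx n).trans_lt hlt
  have hex : ∃ m, 0 < m ∧ v.valuation K (x ^ m - 1) < 1 := ⟨n, hn0, hmn⟩
  set m := Nat.find hex with hm
  obtain ⟨hm0, hmv⟩ := Nat.find_spec hex
  have hper := period_iff_dvd hx hm0 hmv fun i hi him h => Nat.find_min hex him ⟨hi, h⟩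
  obtain ⟨c, hc⟩ := (hper n).1 hmn
  have hc1 : 1 < c := by
    rcases Nat.lt_or_ge 1 c with h | h
    · exact h
    · interval_cases c
      · omega
      · exact (hprim (by rw [hc, mul_one]; exact hper)).elim
  have key : ∀ p : ℕ, p.Prime → p ∣ c → v.valuation K (p : K) < 1 := by
    intro p hp hpc
    obtain ⟨e, he⟩ := hpc
    refine natCast_lt_one_of_geomSum (y := x ^ (m * e)) ((hper _).2 (dvd_mul_right _ _))
      ((valuation_cyclotomic_mul_le hx ?_ (hroot _ ?_) ?_).trans_lt hlt)
    · refine Nat.mem_properDivisors.2 ⟨⟨p, by rw [hc, he]; ring⟩, ?_⟩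
      rw [hc, he]
      exact Nat.mul_lt_mul_of_pos_left (lt_mul_of_one_lt_left
        (Nat.pos_of_ne_zero (by rintro rfl; simp [he] at hc1)) hp.one_lt) hm0
    · exact Nat.mul_pos hm0 (Nat.pos_of_ne_zero (by rintro rfl; simp [he] at hc1))
    · rw [hc, he]; ring
  obtain ⟨p, hp, hpc⟩ := Nat.exists_prime_and_dvd hc1.ne'
  have hpv := key p hp hpc
  have huniq : ∀ r : ℕ, r.Prime → r ∣ c → r = p := fun r hr hrc => by
    by_contra hne
    obtain ⟨s, t, hst⟩ : IsCoprime (r : ℤ) (p : ℤ) :=
      Int.isCoprime_iff_nat_coprime.2 (by simpa using (Nat.coprime_primes hr hp).2 hne)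
    have := congrArg (fun z : ℤ => v.valuation K (z : K)) hst
    push_cast at this
    rw [map_one] at this
    refine absurd this (ne_of_lt ((v.valuation K).map_add_lt ?_ ?_))
    · rw [map_mul]
      refine (mul_le_of_le_one_left zero_le ?_).trans_lt (key r hr hrc)
      rw [show ((s : ℤ) : K) = (((s : ℤ) : 𝓞 K) : K) from (map_intCast _ _).symm]
      exact v.valuation_le_one _
    · rw [map_mul]
      refine (mul_le_of_le_one_left zero_le ?_).trans_lt hpv
      rw [show ((t : ℤ) : K) = (((t : ℤ) : 𝓞 K) : K) from (map_intCast _ _).symm]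
      exact v.valuation_le_one _
  obtain ⟨k, hk⟩ : ∃ k, c = p ^ (k + 1) := by
    have h := Nat.eq_prime_pow_of_unique_prime_dvd (by omega : c ≠ 0) fun {r} hr hrc =>
      huniq r hr hrc
    obtain ⟨k, hk⟩ : ∃ k, c.primeFactorsList.length = k + 1 :=
      ⟨c.primeFactorsList.length - 1, by
        rcases Nat.eq_zero_or_pos c.primeFactorsList.length with h0 | h0
        · rw [h0, pow_zero] at h; omega
        · omega⟩
    exact ⟨k, by rwa [hk] at h⟩
  obtain ⟨hpe, hpN⟩ := prime_sizes hp hpv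
  obtain ⟨hP0, hP⟩ := exists_period hx
  have hmN : m ≤ p ^ finrank ℚ K :=
    (Nat.le_of_dvd hP0 ((hper _).1 hP)).trans ((Nat.sub_le _ _).trans hpN)
  have hbig : finrank ℚ K < (k + 1) * (p - 1) := by
    by_contra hle
    push Not at hle
    have h1 : k + 1 ≤ d :=
      ((Nat.le_mul_of_pos_right _ (by have := hp.two_le; omega)).trans hle).trans hd
    have h2 : p ≤ d + 1 := by
      have := (Nat.le_mul_of_pos_left (p - 1) (Nat.succ_pos k)).trans (hle.trans hd)
      omega
    refine absurd hn (not_lt.2 ?_)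
    rw [hc, hk, two_mul, pow_add (d + 1)]
    exact Nat.mul_le_mul
      (hmN.trans ((Nat.pow_le_pow_right hp.pos hd).trans (Nat.pow_le_pow_left h2 _)))
      ((Nat.pow_le_pow_right hp.pos h1).trans (Nat.pow_le_pow_left h2 _))
  set y := x ^ (m * p ^ k) with hy
  have hy0 : 0 < m * p ^ k := Nat.mul_pos hm0 (pow_pos hp.pos k)
  have hyv : v.valuation K (y - 1) ≤ exp (-((k + 1 : ℕ) : ℤ)) := by
    rw [hy, pow_mul]
    exact valuation_pow_prime_pow_sub_one hmv hpv k
  have hS := valuation_geomSum (hroot _ hy0) hp hpv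
    (hyv.trans_lt (by rw [← exp_zero, exp_lt_exp]; omega))
    (((pow_le_pow_left' hyv _).trans_lt (by
      rw [← exp_nsmul, exp_lt_exp, nsmul_eq_mul]
      have : ((finrank ℚ K : ℕ) : ℤ) < ((k + 1 : ℕ) : ℤ) * ((p - 1 : ℕ) : ℤ) := by
        exact_mod_cast hbig
      push_cast at this ⊢
      linarith)).trans_le hpe)
  have hnp : n = m * p ^ k * p := by rw [hc, hk, pow_succ]; ring
  calc v.valuation K (n : K) ≤ v.valuation K (p : K) := by
        rw [hnp, Nat.cast_mul, map_mul]
        exact mul_le_of_le_one_left zero_le (valuation_natCast_le _)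
    _ = _ := hS.symm
    _ ≤ _ := valuation_cyclotomic_mul_le hx (Nat.mem_properDivisors.2
        ⟨Dvd.intro _ hnp.symm, by rw [hnp]; exact lt_mul_of_one_lt_right hy0 hp.one_lt⟩)
        (hroot _ hy0) hnp

end FA.Postnikova

end
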