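import Fermat.Agent.Postnikova.Arch
import Fermat.Agent.Postnikova.Local
import Mathlib.RingTheory.Polynomial.ScaleRoots

/-!
# Primitive divisors in number fields

The theorem of Postnikova and Schinzel: for `a / b` in a number field, no root of unity, and
`n ≥ primitiveIndexBound d h` the multiplicative order of `a / b` at some prime is exactly `n`.
Otherwise `g ^ φ(n) · n`, `g = (a, b)`, would be divisible by the homogeneous cyclotomic value,
whose norm is about `exp (φ(n) [K:ℚ] h(a / b)) N g ^ φ(n)`.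
-/

set_option autoImplicit false
set_option linter.unusedSectionVars false

noncomputable section

namespace FA.Postnikova

open Finset NumberField IsDedekindDomain Module Polynomial

variable {K : Type*} [Field K] [NumberField K]

/-- The homogeneous cyclotomic value `b ^ φ(n) Φ n (a / b)`. -/
def homogValue (a b : 𝓞 K) (n : ℕ) : 𝓞 K :=
  ((cyclotomic n (𝓞 K)).scaleRoots b).eval a

theorem coe_homogValue {a b : 𝓞 K} (hb : b ≠ 0) (n : ℕ) :
    (homogValue a b n : K) = (b : K) ^ n.totient * (cyclotomic n K).eval ((a : K) / (b : K)) := by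
  have hbK : (b : K) ≠ 0 := RingOfIntegers.coe_ne_zero_iff.2 hb
  have h := scaleRoots_eval₂_mul (p := cyclotomic n (𝓞 K)) (algebraMap (𝓞 K) K)
    ((a : K) / (b : K)) b
  rw [mul_div_cancel₀ _ hbK, eval₂_at_apply, natDegree_cyclotomic, eval₂_eq_eval_map,
    map_cyclotomic] at h
  exact h

theorem eval_cyclotomic_ne_zero {R : Type*} [CommRing R] [IsDomain R] {x : R} {n : ℕ} (hn : 0 < n)
    (hroot : ∀ i : ℕ, 0 < i → x ^ i ≠ 1) : (cyclotomic n R).eval x ≠ 0 := fun h => by
  obtain ⟨Q, hQ⟩ := cyclotomic.dvd_X_pow_sub_one n R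
  have h1 := congrArg (fun P : R[X] => P.eval x) hQ
  simp only [eval_sub, eval_pow, eval_X, eval_one, eval_mul, h, zero_mul] at h1
  exact hroot n hn (sub_eq_zero.1 h1)

theorem valuation_mul_pow_le {v : HeightOneSpectrum (𝓞 K)} {d n : ℕ} (hd : finrank ℚ K ≤ d)
    (hn : (d + 1) ^ (2 * d) < n) (hn1 : 1 < n) {x : K} (hroot : ∀ i : ℕ, 0 < i → x ^ i ≠ 1)
    (hprim : ¬ ∀ j : ℕ, v.valuation K (x ^ j - 1) < 1 ↔ n ∣ j) {i : ℕ} (hi : i ≤ n.totient) :
    v.valuation K (n : K) * v.valuation K x ^ i ≤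
      v.valuation K ((cyclotomic n K).eval x) := by
  have hcoeff : ∀ j, v.valuation K ((cyclotomic n K).coeff j) ≤ 1 := fun j => by
    rw [← map_cyclotomic_int, coeff_map, eq_intCast, ← map_intCast (algebraMap (𝓞 K) K)]
    exact v.valuation_le_one _
  have hsum : (cyclotomic n K).eval x =
      ∑ j ∈ range (n.totient + 1), (cyclotomic n K).coeff j * x ^ j := by
    rw [eval_eq_sum_range, natDegree_cyclotomic]
  have hlead : (cyclotomic n K).coeff n.totient = 1 := by
    rw [← natDegree_cyclotomic n K]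
    exact (cyclotomic.monic n K).coeff_natDegree
  rcases lt_trichotomy (v.valuation K x) 1 with h | h | h
  · have he : v.valuation K ((cyclotomic n K).eval x) = 1 := by
      rw [hsum, sum_range_succ', pow_zero, mul_one, cyclotomic_coeff_zero K hn1, add_comm]
      refine (v.valuation K).map_one_add_of_lt
        ((v.valuation K).map_sum_lt one_ne_zero fun j _ => ?_)
      rw [map_mul, map_pow]
      exact (mul_le_of_le_one_left zero_le (hcoeff _)).trans_lt
        (pow_lt_one' h (Nat.succ_ne_zero j))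
    rw [he]
    exact mul_le_one₀ (valuation_natCast_le n) zero_le (pow_le_one₀ zero_le h.le)
  · rw [h, one_pow, mul_one]
    exact imprimitive_valuation_le hd hn h hroot hprim
  · have hne : v.valuation K (x ^ n.totient) ≠ 0 := by
      rw [map_pow]
      exact pow_ne_zero _ (ne_zero_of_lt h)
    have he : v.valuation K ((cyclotomic n K).eval x) = v.valuation K x ^ n.totient := by
      rw [hsum, sum_range_succ, hlead, one_mul, add_comm, ← map_pow]
      refine (v.valuation K).map_add_eq_of_lt_left ((v.valuation K).map_sum_lt hne fun j hj => ?_)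
      rw [map_mul, map_pow, map_pow]
      exact (mul_le_of_le_one_left zero_le (hcoeff _)).trans_lt
        (pow_lt_pow_right₀ h (mem_range.1 hj))
    rw [he]
    exact (mul_le_of_le_one_left zero_le (valuation_natCast_le n)).trans (pow_le_pow_right₀ h.le hi)

theorem span_pow_mul_le {a b : 𝓞 K} (hb : b ≠ 0) {d n : ℕ} (hd : finrank ℚ K ≤ d)
    (hn : (d + 1) ^ (2 * d) < n) (hn1 : 1 < n)
    (hroot : ∀ i : ℕ, 0 < i → ((a : K) / (b : K)) ^ i ≠ 1)
    (hprim : ∀ v : HeightOneSpectrum (𝓞 K),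
      ¬ ∀ j : ℕ, v.valuation K (((a : K) / (b : K)) ^ j - 1) < 1 ↔ n ∣ j) :
    Ideal.span {a, b} ^ n.totient * Ideal.span {(n : 𝓞 K)} ≤
      Ideal.span {homogValue a b n} := by
  have hbK : (b : K) ≠ 0 := RingOfIntegers.coe_ne_zero_iff.2 hb
  set k := n.totient
  have hc : (homogValue a b n : K) ≠ 0 := by
    rw [coe_homogValue hb]
    exact mul_ne_zero (pow_ne_zero _ hbK) (eval_cyclotomic_ne_zero (by omega) hroot)
  have hgen : ∀ i ≤ k, a ^ i * b ^ (k - i) * (n : 𝓞 K) ∈ Ideal.span {homogValue a b n} := by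
    intro i hi
    obtain ⟨z, hz⟩ := HeightOneSpectrum.mem_integers_of_valuation_le_one K
      (((a ^ i * b ^ (k - i) * (n : 𝓞 K) : 𝓞 K) : K) / (homogValue a b n : K)) fun v => by
        rw [map_div₀, div_le_one₀ (zero_lt_iff.2 ((Valuation.ne_zero_iff _).2 hc)),
          coe_homogValue hb]
        have e : ((a ^ i * b ^ (k - i) * (n : 𝓞 K) : 𝓞 K) : K) =
            (b : K) ^ k * ((n : K) * ((a : K) / (b : K)) ^ i) := by
          simp only [map_mul, map_pow, map_natCast]
          rw [div_pow, ← Nat.sub_add_cancel hi, pow_add, Nat.add_sub_cancel]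
          field_simp
        rw [e, map_mul _ ((b : K) ^ k), map_mul _ ((b : K) ^ k), map_mul _ (n : K), map_pow _ _ i]
        exact mul_le_mul' le_rfl (valuation_mul_pow_le hd hn hn1 hroot (hprim v) hi)
    refine Ideal.mem_span_singleton.2 ⟨z, RingOfIntegers.coe_injective ?_⟩
    rw [map_mul _ (homogValue a b n) z, hz, mul_div_cancel₀ _ hc]
  rw [Ideal.mul_le]
  intro r hr s hs
  obtain ⟨s, rfl⟩ := Ideal.mem_span_singleton.1 hs
  rw [← mul_assoc]
  refine Ideal.mul_mem_right _ _ ?_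
  have hJ : Ideal.span {a, b} ^ k ≤
      (Ideal.span {homogValue a b n}).colon {(n : 𝓞 K)} := by
    rw [Ideal.span_insert, ← Submodule.add_eq_sup, add_pow]
    rw [Ideal.sum_eq_sup]
    refine Finset.sup_le fun i hi => ?_
    refine Ideal.mul_le_left.trans ?_
    rw [Ideal.span_singleton_pow, Ideal.span_singleton_pow, Ideal.span_singleton_mul_span_singleton,
      Ideal.span_le, Set.singleton_subset_iff, SetLike.mem_coe, Submodule.mem_colon_singleton,
      smul_eq_mul]
    exact hgen i (Nat.lt_succ_iff.1 (mem_range.1 hi))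
  simpa [Submodule.mem_colon_singleton] using hJ hr

theorem homogValue_ne_zero {a b : 𝓞 K} (hb : b ≠ 0) {n : ℕ} (hn : 0 < n)
    (hroot : ∀ i : ℕ, 0 < i → ((a : K) / (b : K)) ^ i ≠ 1) : homogValue a b n ≠ 0 := fun h0 => by
  have e := coe_homogValue (a := a) hb n
  rw [h0] at e
  exact mul_ne_zero (pow_ne_zero _ (RingOfIntegers.coe_ne_zero_iff.2 hb))
    (eval_cyclotomic_ne_zero hn hroot) (e.symm.trans (map_zero _))

theorem log_absNorm_homogValue_ge {d h m n : ℕ} (hd : finrank ℚ K ≤ d) {a b : 𝓞 K} (ha : a ≠ 0)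
    (hb : b ≠ 0) (hah : ∀ σ : K →+* ℂ, ‖σ (a : K)‖ ≤ (2 : ℝ) ^ h)
    (hbh : ∀ σ : K →+* ℂ, ‖σ (b : K)‖ ≤ (2 : ℝ) ^ h)
    (hroot : ∀ i : ℕ, 0 < i → ((a : K) / (b : K)) ^ i ≠ 1) (hn : 0 < n) (hnm : 2 * n ≤ 2 ^ m) :
    |Real.log (Ideal.absNorm (Ideal.span {homogValue a b n})) -
        n.totient * (pairLogSize a b + Real.log (Ideal.absNorm (Ideal.span {a, b})))| ≤
      d * (2 ^ n.primeFactors.card * ((distExponent d h m : ℝ) * Real.log 2)) := by
  have hbK : (b : K) ≠ 0 := RingOfIntegers.coe_ne_zero_iff.2 hb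
  have hc := homogValue_ne_zero hb hn hroot
  rw [← sum_log_norm hc, pairLogSize, sub_add_cancel, mul_sum, ← sum_sub_distrib]
  refine (abs_sum_le_sum_abs _ _).trans ((sum_le_card_nsmul _ _
    (2 ^ n.primeFactors.card * ((distExponent d h m : ℝ) * Real.log 2)) fun σ _ => ?_).trans ?_)
  · have e : σ (homogValue a b n : K) =
        σ (b : K) ^ n.totient * (cyclotomic n ℂ).eval (σ (a : K) / σ (b : K)) := by
      rw [coe_homogValue hb, map_mul, map_pow, ← eval_map_apply, map_cyclotomic, map_div₀]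
    rw [e]
    refine abs_log_homog_cyclotomic ((map_ne_zero σ).2 hbK) (fun i hi h0 => hroot i hi
      (σ.injective (by rw [map_pow, map_div₀, map_one]; exact h0))) hn.ne' fun j hj => ?_
    exact abs_log_pow_sub_pow hd ha hb hah hbh hroot σ (Nat.pos_of_mem_divisors hj)
      ((Nat.mul_le_mul_left 2 (Nat.divisor_le hj)).trans hnm)
  · rw [card_univ, Embeddings.card, nsmul_eq_mul]
    exact mul_le_mul_of_nonneg_right (Nat.cast_le.2 hd) (by positivity)

theorem pow_lt_primitiveIndexBound (d h : ℕ) :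
    (d + 1) ^ (2 * d) < primitiveIndexBound d h ∧ 1 < primitiveIndexBound d h := by
  unfold primitiveIndexBound
  refine ⟨(Nat.pow_le_pow_left Nat.lt_two_pow_self _).trans_lt ?_,
    Nat.one_lt_pow (by omega) one_lt_two⟩
  rw [← pow_mul]
  refine Nat.pow_lt_pow_right one_lt_two ?_
  nlinarith

/-- **The theorem of Postnikova and Schinzel.** -/
theorem exists_primitive_prime {d h n : ℕ} (hd : finrank ℚ K ≤ d) {a b : 𝓞 K} (ha : a ≠ 0)
    (hb : b ≠ 0) (hah : ∀ σ : K →+* ℂ, ‖σ (a : K)‖ ≤ (2 : ℝ) ^ h)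
    (hbh : ∀ σ : K →+* ℂ, ‖σ (b : K)‖ ≤ (2 : ℝ) ^ h)
    (hroot : ∀ i : ℕ, 0 < i → ((a : K) / (b : K)) ^ i ≠ 1)
    (hn : primitiveIndexBound d h ≤ n) :
    ∃ v : HeightOneSpectrum (𝓞 K),
      ∀ j : ℕ, v.valuation K (((a : K) / (b : K)) ^ j - 1) < 1 ↔ n ∣ j := by
  by_contra hno
  have hd1 : 1 ≤ d := le_trans finrank_pos hd
  obtain ⟨h1, h2⟩ := pow_lt_primitiveIndexBound d h
  have hn1 : 1 < n := h2.trans_le hn
  have hle := span_pow_mul_le hb hd (h1.trans_le hn) hn1 hroot
    fun v hv => hno ⟨v, hv⟩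
  set m := Nat.log2 n + 2 with hm
  have hind : ((2 : ℝ) ^ (3 * d)) * (d * m + d * (2 ^ n.primeFactors.card * distExponent d h m)) <
      (n.totient : ℝ) := by
    exact_mod_cast index_bound hd1 hn
  clear hn h1 h2
  set k := n.totient
  have hnm : 2 * n ≤ 2 ^ m := by
    have := Nat.lt_log2_self (n := n)
    rw [hm, pow_succ]
    omega
  have hnorm := Ideal.absNorm_dvd_absNorm_of_le hle
  rw [map_mul, map_pow, Ideal.absNorm_span_singleton (n : 𝓞 K),
    ← map_natCast (algebraMap ℤ (𝓞 K)), Algebra.norm_algebraMap, RingOfIntegers.rank,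
    Int.natAbs_pow, Int.natAbs_natCast] at hnorm
  have hg : 0 < Ideal.absNorm (Ideal.span {a, b}) := Nat.pos_of_ne_zero fun h0 => hb (by
    have := Ideal.subset_span (s := {a, b}) (Set.mem_insert_of_mem a rfl)
    rwa [Ideal.absNorm_eq_zero_iff.1 h0, SetLike.mem_coe, Ideal.mem_bot] at this)
  have hub := Nat.le_of_dvd (Nat.mul_pos (pow_pos hg _) (pow_pos (by omega) _)) hnorm
  have hlow := (abs_le.1 (log_absNorm_homogValue_ge hd ha hb hah hbh hroot (by omega) hnm)).1
  have hP := pairLogSize_ge hd ha hb hroot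
  have hc0 : (0 : ℝ) < Ideal.absNorm (Ideal.span {homogValue a b n}) :=
    Nat.cast_pos.2 (absNorm_span_pos (homogValue_ne_zero hb (zero_lt_one.trans hn1) hroot))
  have hlog := Real.log_le_log hc0 (Nat.cast_le.2 hub)
  rw [Nat.cast_mul, Nat.cast_pow, Nat.cast_pow, Real.log_mul (by positivity) (by positivity),
    Real.log_pow, Real.log_pow] at hlog
  have hlogn : (finrank ℚ K : ℝ) * Real.log n ≤ (d : ℝ) * ((m : ℝ) * Real.log 2) := by
    rw [← Real.log_pow 2 m]
    exact mul_le_mul (Nat.cast_le.2 hd) (Real.log_le_log (by positivity)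
      (by exact_mod_cast (by omega : n ≤ 2 ^ m))) (Real.log_natCast_nonneg n) (Nat.cast_nonneg d)
  have hl2 : 0 < Real.log 2 := Real.log_pos one_lt_two
  rw [div_le_iff₀ (by positivity)] at hP
  have hkey : (k : ℝ) * pairLogSize a b ≤
      (d * m + d * (2 ^ n.primeFactors.card * distExponent d h m)) * Real.log 2 := by
    linarith
  nlinarith [mul_lt_mul_of_pos_right hind hl2,
    mul_le_mul_of_nonneg_left hkey (pow_nonneg (zero_le_two (α := ℝ)) (3 * d)),
    mul_le_mul_of_nonneg_left hP (Nat.cast_nonneg (α := ℝ) k)]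

end FA.Postnikova

end
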